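import Fermat.Agent.Hoheisel.InghamIntervals
import Mathlib.Analysis.SpecialFunctions.Integrals.Basic
import Mathlib.Analysis.Complex.Basic

/-!
# Mean square of a sum over zeros on a dyadic interval

`∫_X^{2X} |∑ c(ρ) y^(ρ+1)|² dy` is bounded by `X^5` times `∑ |c(ρ)|² X^(2 (re ρ - 1))` and the
largest value of `∑_σ 1 / (1 + |γ - γ'|)`, which is `O (log² T)` for zeros up to height `T`.
-/

set_option autoImplicit false

noncomputable section

namespace FA.AlmostAllPrimes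

open Finset Complex MeasureTheory
open FA.RiemannMangoldt (xiFn xiFn_zero_strip)
open FA.ExplicitFormula (zeroWeight)
open FA.ZeroFree (ell ell_mono four_le_ell)

lemma sum_inv_dist_le (n N : ℕ) :
    ∑ k ∈ range (N + 1), 1 / (1 + |(k : ℝ) - n|) ≤
      2 * ∑ j ∈ range (N + 1), 1 / ((j : ℝ) + 1) := by
  rw [← sum_filter_add_sum_filter_not (range (N + 1)) fun k => k ≤ n, two_mul]
  refine add_le_add ?_ ?_
  · rcases le_or_gt n N with hn | hn
    · calc ∑ k ∈ (range (N + 1)).filter (fun k => k ≤ n), 1 / (1 + |(k : ℝ) - n|)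
          = ∑ j ∈ range (n + 1), 1 / ((j : ℝ) + 1) := by
            have h : (range (N + 1)).filter (fun k => k ≤ n) = range (n + 1) := by
              ext k; simp only [mem_filter, mem_range]; omega
            rw [h, ← sum_range_reflect (fun j => 1 / ((j : ℝ) + 1)) (n + 1)]
            refine sum_congr rfl fun k hk => ?_
            rw [mem_range] at hk
            rw [abs_of_nonpos (by
              have : (k : ℝ) ≤ n := by exact_mod_cast (show k ≤ n by omega)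
              linarith), show n + 1 - 1 - k = n - k by omega,
              Nat.cast_sub (show k ≤ n by omega)]
            ring
        _ ≤ _ := sum_le_sum_of_subset_of_nonneg (range_subset_range.2 (by omega))
            fun j _ _ => by positivity
    · refine (sum_le_sum_of_subset_of_nonneg (filter_subset _ _)
        fun j _ _ => by positivity).trans ?_
      rw [← sum_range_reflect (fun j => 1 / ((j : ℝ) + 1)) (N + 1)]
      refine sum_le_sum fun k hk => ?_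
      rw [mem_range] at hk
      refine one_div_le_one_div_of_le (by positivity) ?_
      have h1 : (k : ℝ) ≤ N := by exact_mod_cast (show k ≤ N by omega)
      have h2 : (N : ℝ) + 1 ≤ n := by exact_mod_cast hn
      rw [abs_of_nonpos (by linarith), show N + 1 - 1 - k = N - k by omega,
        Nat.cast_sub (show k ≤ N by omega)]
      linarith
  · refine le_trans (le_of_eq ?_) (sum_le_sum_of_subset_of_nonneg
      (f := fun j : ℕ => 1 / ((j : ℝ) + 1))
      (s := ((range (N + 1)).filter fun k => ¬k ≤ n).image fun k => k - n) (fun j hj => ?_)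
      fun j _ _ => by positivity)
    · rw [sum_image fun a ha b hb hab => by
        simp only [coe_filter, mem_range, Set.mem_ofPred_eq] at ha hb
        omega]
      refine sum_congr rfl fun k hk => ?_
      have hk' : n ≤ k := by simp only [mem_filter] at hk; omega
      rw [Nat.cast_sub hk', abs_of_nonneg (sub_nonneg.2 (by exact_mod_cast hk'))]
      ring
    · obtain ⟨k, hk, rfl⟩ := mem_image.1 hj
      simp only [mem_filter, mem_range] at hk ⊢
      omega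

/-- `∑_{|γ| ≤ X} w / (1 + |γ - t|) = O (log² X)` for every `|t| ≤ X`. -/
theorem exists_pair_sum : ∃ C, 0 ≤ C ∧ ∀ (X t : ℝ) (S : Finset ℂ), 0 ≤ X → |t| ≤ X →
    (∀ ρ ∈ S, xiFn ρ = 0 ∧ |ρ.im| ≤ X) →
      ∑ ρ ∈ S, (zeroWeight ρ : ℝ) * (1 / (1 + |ρ.im - t|)) ≤ C * ell X ^ 2 := by
  obtain ⟨C, hC, h⟩ := FA.ExplicitFormula.exists_sum_blocks
  refine ⟨8 * C, by positivity, fun X t S hX ht hS => ?_⟩
  set n := ⌊|t|⌋₊ with hn
  refine (h S (range (⌊X⌋₊ + 1)) _ (fun k => 2 * (1 / (1 + |(k : ℝ) - n|))) (fun ρ hρ =>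
    ⟨(hS ρ hρ).1, mem_range.2 (Nat.lt_succ_of_le (Nat.floor_mono (hS ρ hρ).2)), ?_⟩)
    fun k _ => by positivity).trans ?_
  · rw [mul_one_div, div_le_div_iff₀ (by positivity) (by positivity), one_mul]
    have h1 : |(⌊|ρ.im|⌋₊ : ℝ) - n| ≤ |ρ.im - t| + 1 := by
      have a1 := Nat.floor_le (abs_nonneg ρ.im)
      have a2 := Nat.lt_floor_add_one |ρ.im|
      have b1 : (n : ℝ) ≤ |t| := Nat.floor_le (abs_nonneg t)
      have b2 : |t| < n + 1 := Nat.lt_floor_add_one |t|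
      have c1 := abs_abs_sub_abs_le_abs_sub ρ.im t
      rw [abs_le] at c1 ⊢
      constructor <;> linarith [c1.1, c1.2]
    linarith [abs_nonneg (ρ.im - t)]
  · rw [mul_assoc (8 : ℝ), mul_left_comm (8 : ℝ)]
    refine mul_le_mul_of_nonneg_left ?_ hC
    have hl := four_le_ell X
    refine (sum_le_sum (g := fun k : ℕ => 2 * ell X * (1 / (1 + |(k : ℝ) - n|)))
      fun k hk => ?_).trans ?_
    · rw [mul_left_comm, mul_assoc]
      refine mul_le_mul_of_nonneg_left (mul_le_mul_of_nonneg_right (ell_mono ?_) (by positivity))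
        zero_le_two
      rw [Nat.abs_cast, abs_of_nonneg hX]
      have h1 : (k : ℝ) ≤ ⌊X⌋₊ := Nat.cast_le.2 (Nat.lt_succ_iff.1 (mem_range.1 hk))
      linarith [Nat.floor_le hX]
    · rw [← mul_sum]
      have h1 := harmonic_le_one_add_log (⌊X⌋₊ + 1)
      simp only [harmonic, Rat.cast_sum, Rat.cast_inv, Rat.cast_natCast] at h1
      push_cast at h1
      have h2 : Real.log ((⌊X⌋₊ : ℝ) + 1) ≤ ell X :=
        Real.log_le_log (by positivity) (by rw [abs_of_nonneg hX]; linarith [Nat.floor_le hX])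
      have h3 : ∑ j ∈ range (⌊X⌋₊ + 1), 1 / ((j : ℝ) + 1) ≤ 2 * ell X := by
        simp only [one_div]
        linarith
      calc 2 * ell X * ∑ k ∈ range (⌊X⌋₊ + 1), 1 / (1 + |(k : ℝ) - n|)
          ≤ 2 * ell X * (2 * (2 * ell X)) := by
            gcongr
            exact (sum_inv_dist_le n _).trans (mul_le_mul_of_nonneg_left h3 zero_le_two)
        _ = _ := by ring

/-- One product of two zero terms. -/
lemma norm_integral_pair_le {ρ σ : ℂ} (hρ : 0 < ρ.re) (hρ' : ρ.re < 1) (hσ : 0 < σ.re)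
    (hσ' : σ.re < 1) {X : ℝ} (hX : 0 < X) :
    ‖∫ y : ℝ in X..2 * X, (y : ℂ) ^ (ρ + (starRingEnd ℂ) σ + 2)‖ ≤
      128 * X ^ 5 * X ^ (ρ.re - 1) * X ^ (σ.re - 1) / (1 + |ρ.im - σ.im|) := by
  set r : ℂ := ρ + (starRingEnd ℂ) σ + 2 with hr
  have hre : r.re = ρ.re + σ.re + 2 := by simp [hr]
  have hre1 : (r + 1).re = ρ.re + σ.re + 3 := by rw [add_re, hre, one_re]; ring
  have him1 : (r + 1).im = ρ.im - σ.im := by simp [hr, sub_eq_add_neg]
  have hden : (1 + |ρ.im - σ.im|) / 2 ≤ ‖r + 1‖ := by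
    have h1 := abs_re_le_norm (r + 1)
    have h2 := abs_im_le_norm (r + 1)
    rw [hre1, abs_of_pos (by linarith)] at h1
    rw [him1] at h2
    linarith
  have he : ∀ y : ℝ, 0 < y → y ≤ 2 * X →
      ‖(y : ℂ) ^ (r + 1)‖ ≤ 32 * X ^ (ρ.re + σ.re + 3) := by
    intro y hy hy2
    rw [norm_cpow_eq_rpow_re_of_pos hy, hre1]
    refine (Real.rpow_le_rpow hy.le hy2 (by linarith)).trans ?_
    rw [Real.mul_rpow zero_le_two hX.le]
    refine mul_le_mul_of_nonneg_right ?_ (Real.rpow_nonneg hX.le _)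
    refine (Real.rpow_le_rpow_of_exponent_le one_le_two
      (show ρ.re + σ.re + 3 ≤ ((5 : ℕ) : ℝ) by push_cast; linarith)).trans (le_of_eq ?_)
    rw [Real.rpow_natCast]
    norm_num
  rw [integral_cpow (Or.inl (by rw [hre]; linarith)), norm_div]
  have hnum : ‖((2 * X : ℝ) : ℂ) ^ (r + 1) - (X : ℂ) ^ (r + 1)‖ ≤
      64 * X ^ (ρ.re + σ.re + 3) := by
    refine (norm_sub_le _ _).trans ?_
    linarith [he (2 * X) (by linarith) le_rfl, he X hX (by linarith)]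
  calc ‖((2 * X : ℝ) : ℂ) ^ (r + 1) - (X : ℂ) ^ (r + 1)‖ / ‖r + 1‖
      ≤ 64 * X ^ (ρ.re + σ.re + 3) / ((1 + |ρ.im - σ.im|) / 2) := by
        gcongr
    _ = 128 * (X ^ ((5 : ℕ) : ℝ) * X ^ (ρ.re - 1) * X ^ (σ.re - 1)) /
          (1 + |ρ.im - σ.im|) := by
        rw [← Real.rpow_add hX, ← Real.rpow_add hX, div_div_eq_mul_div]
        push_cast
        ring_nf
    _ = _ := by rw [Real.rpow_natCast]; ring

/-- **The mean square.** -/
theorem integral_norm_sq_le {X B : ℝ} (hX : 0 < X) (Z : Finset ℂ) (w : ℂ → ℝ) (c : ℂ → ℂ)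
    (hw : ∀ ρ ∈ Z, 0 ≤ w ρ) (hZ : ∀ ρ ∈ Z, 0 < ρ.re ∧ ρ.re < 1)
    (hB : ∀ ρ ∈ Z, ∑ σ ∈ Z, w σ * (1 / (1 + |σ.im - ρ.im|)) ≤ B) :
    ∫ y in X..2 * X, ‖∑ ρ ∈ Z, (w ρ : ℂ) * c ρ * (y : ℂ) ^ (ρ + 1)‖ ^ 2 ≤
      128 * X ^ 5 * B * ∑ ρ ∈ Z, w ρ * (‖c ρ‖ * X ^ (ρ.re - 1)) ^ 2 := by
  set v : ℂ → ℝ := fun ρ => ‖c ρ‖ * X ^ (ρ.re - 1) with hv
  have hpos : ∀ y ∈ Set.uIcc X (2 * X), 0 < y := fun y hy => by
    rw [Set.uIcc_of_le (by linarith)] at hy
    linarith [hy.1]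
  have hexp : ∀ y ∈ Set.uIcc X (2 * X),
      ((‖∑ ρ ∈ Z, (w ρ : ℂ) * c ρ * (y : ℂ) ^ (ρ + 1)‖ ^ 2 : ℝ) : ℂ) =
        ∑ ρ ∈ Z, ∑ σ ∈ Z, (w ρ : ℂ) * c ρ * ((w σ : ℂ) * (starRingEnd ℂ) (c σ)) *
          (y : ℂ) ^ (ρ + (starRingEnd ℂ) σ + 2) := by
    intro y hy
    have hy0 := hpos y hy
    rw [← Complex.normSq_eq_norm_sq, ← Complex.mul_conj, map_sum, sum_mul_sum]
    refine sum_congr rfl fun ρ _ => sum_congr rfl fun σ _ => ?_
    have harg : (y : ℂ).arg ≠ Real.pi := by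
      rw [arg_ofReal_of_nonneg hy0.le]
      exact Real.pi_ne_zero.symm
    have e : (starRingEnd ℂ) ((y : ℂ) ^ (σ + 1)) = (y : ℂ) ^ ((starRingEnd ℂ) σ + 1) := by
      rw [show (starRingEnd ℂ) σ + 1 = (starRingEnd ℂ) (σ + 1) by simp, cpow_conj _ _ harg,
        conj_ofReal]
    rw [map_mul, map_mul, conj_ofReal, e,
      show ρ + (starRingEnd ℂ) σ + 2 = (ρ + 1) + ((starRingEnd ℂ) σ + 1) by ring,
      cpow_add (ρ + 1) _ (ofReal_ne_zero.2 hy0.ne')]
    ring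
  have hcont : ∀ r : ℂ, ContinuousOn (fun y : ℝ => (y : ℂ) ^ r) (Set.uIcc X (2 * X)) :=
    fun r y hy => (continuousAt_ofReal_cpow_const y r (Or.inr (hpos y hy).ne')).continuousWithinAt
  have hint : ∀ (a r : ℂ), IntervalIntegrable (fun y : ℝ => a * (y : ℂ) ^ r) volume X (2 * X) :=
    fun a r => ((hcont r).const_smul a).intervalIntegrable
  have key : ((∫ y in X..2 * X, ‖∑ ρ ∈ Z, (w ρ : ℂ) * c ρ * (y : ℂ) ^ (ρ + 1)‖ ^ 2 : ℝ) : ℂ) =
      ∑ ρ ∈ Z, ∑ σ ∈ Z, (w ρ : ℂ) * c ρ * ((w σ : ℂ) * (starRingEnd ℂ) (c σ)) *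
        ∫ y : ℝ in X..2 * X, (y : ℂ) ^ (ρ + (starRingEnd ℂ) σ + 2) := by
    rw [← intervalIntegral.integral_ofReal, intervalIntegral.integral_congr hexp,
      intervalIntegral.integral_finsetSum fun ρ _ => ?_]
    · refine sum_congr rfl fun ρ _ => ?_
      rw [intervalIntegral.integral_finsetSum fun σ _ => hint _ _]
      exact sum_congr rfl fun σ _ => intervalIntegral.integral_const_mul _ _
    · exact (continuousOn_finsetSum Z fun σ _ => (hcont _).const_smul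
        ((w ρ : ℂ) * c ρ * ((w σ : ℂ) * (starRingEnd ℂ) (c σ)))).intervalIntegrable
  set k : ℂ → ℂ → ℝ := fun ρ σ => 1 / (1 + |ρ.im - σ.im|) with hk
  have hk0 : ∀ ρ σ, 0 ≤ k ρ σ := fun ρ σ => by positivity
  have hX5 : 0 ≤ 128 * X ^ 5 := by positivity
  refine le_trans (le_of_eq_of_le (Eq.refl _) (le_abs_self _)) ?_
  rw [← Real.norm_eq_abs, ← Complex.norm_real, key]
  calc ‖∑ ρ ∈ Z, ∑ σ ∈ Z, (w ρ : ℂ) * c ρ * ((w σ : ℂ) * (starRingEnd ℂ) (c σ)) *
        ∫ y : ℝ in X..2 * X, (y : ℂ) ^ (ρ + (starRingEnd ℂ) σ + 2)‖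
      ≤ ∑ ρ ∈ Z, ∑ σ ∈ Z, 128 * X ^ 5 * (w ρ * w σ * (v ρ ^ 2 / 2 + v σ ^ 2 / 2) * k ρ σ) := by
        refine (norm_sum_le _ _).trans (sum_le_sum fun ρ hρ => (norm_sum_le _ _).trans
          (sum_le_sum fun σ hσ => ?_))
        simp only [norm_mul, RCLike.norm_conj, norm_real, Real.norm_of_nonneg (hw ρ hρ),
          Real.norm_of_nonneg (hw σ hσ)]
        have hp := norm_integral_pair_le (hZ ρ hρ).1 (hZ ρ hρ).2 (hZ σ hσ).1 (hZ σ hσ).2 hX
        have hw' : 0 ≤ w ρ * ‖c ρ‖ * (w σ * ‖c σ‖) :=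
          mul_nonneg (mul_nonneg (hw ρ hρ) (norm_nonneg _))
            (mul_nonneg (hw σ hσ) (norm_nonneg _))
        refine (mul_le_mul_of_nonneg_left hp hw').trans ?_
        have hamgm : v ρ * v σ ≤ v ρ ^ 2 / 2 + v σ ^ 2 / 2 := by
          nlinarith [sq_nonneg (v ρ - v σ)]
        calc w ρ * ‖c ρ‖ * (w σ * ‖c σ‖) *
              (128 * X ^ 5 * X ^ (ρ.re - 1) * X ^ (σ.re - 1) / (1 + |ρ.im - σ.im|))
            = 128 * X ^ 5 * (w ρ * w σ * (v ρ * v σ) * k ρ σ) := by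
              simp only [hv, hk]; ring
          _ ≤ _ := by
              refine mul_le_mul_of_nonneg_left (mul_le_mul_of_nonneg_right
                (mul_le_mul_of_nonneg_left hamgm (mul_nonneg (hw ρ hρ) (hw σ hσ))) (hk0 ρ σ)) hX5
    _ = 128 * X ^ 5 * ∑ ρ ∈ Z, w ρ * v ρ ^ 2 * ∑ σ ∈ Z, w σ * k σ ρ := by
        simp only [← mul_sum]
        congr 1
        have hsymm : ∀ ρ σ : ℂ, k σ ρ = k ρ σ := fun ρ σ => by simp only [hk, abs_sub_comm]
        have h1 : ∑ ρ ∈ Z, ∑ σ ∈ Z, w ρ * w σ * (v σ ^ 2 / 2) * k ρ σ =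
            ∑ ρ ∈ Z, ∑ σ ∈ Z, w ρ * w σ * (v ρ ^ 2 / 2) * k ρ σ := by
          rw [sum_comm]
          refine sum_congr rfl fun ρ _ => sum_congr rfl fun σ _ => ?_
          rw [hsymm]; ring
        calc ∑ ρ ∈ Z, ∑ σ ∈ Z, w ρ * w σ * (v ρ ^ 2 / 2 + v σ ^ 2 / 2) * k ρ σ
            = ∑ ρ ∈ Z, ∑ σ ∈ Z, w ρ * w σ * (v ρ ^ 2 / 2) * k ρ σ +
              ∑ ρ ∈ Z, ∑ σ ∈ Z, w ρ * w σ * (v σ ^ 2 / 2) * k ρ σ := by
              simp only [← sum_add_distrib]
              exact sum_congr rfl fun ρ _ => sum_congr rfl fun σ _ => by ring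
          _ = _ := by
              rw [h1]
              simp only [← sum_add_distrib, mul_sum]
              exact sum_congr rfl fun ρ _ => sum_congr rfl fun σ _ => by rw [hsymm]; ring
    _ ≤ _ := by
        rw [mul_assoc (128 * X ^ 5) B, mul_sum Z _ B]
        refine mul_le_mul_of_nonneg_left (sum_le_sum fun ρ hρ => ?_) hX5
        rw [mul_comm B]
        exact mul_le_mul_of_nonneg_left (hB ρ hρ) (mul_nonneg (hw ρ hρ) (sq_nonneg _))

end FA.AlmostAllPrimes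

end
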