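import Fermat.Agent.AlmostAllPrimes.Psi
import Mathlib.NumberTheory.Bertrand

/-!
# Primes in almost all short intervals

Prime powers are removed on average, since `ψ - θ` is monotone and `O (√x log x)`. Hence almost
every interval `(x, x + x ^ θ]`, `θ > 1/4`, contains a prime and the gaps longer than `p ^ θ`
have total length `o (x)`.
-/

set_option autoImplicit false

noncomputable section

namespace FA.AlmostAllPrimes

open Filter MeasureTheory
open FA.Huxley (DensityBound)
open FA.Hoheisel (FreeRate)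
open Chebyshev (psi theta)

lemma psiSubTheta_mono : Monotone fun x : ℝ => psi x - theta x := fun x y h => by
  simp only [Chebyshev.psi_sub_theta_eq_sum_not_prime]
  exact Finset.sum_le_sum_of_subset_of_nonneg
    (Finset.filter_subset_filter _ (Finset.Ioc_subset_Ioc le_rfl (Nat.floor_mono h)))
    fun n _ _ => ArithmeticFunction.vonMangoldt_nonneg

/-- Prime powers contribute little on average. -/
theorem primePow_almost {ε η : ℝ} (hε : 0 < ε) (hη : 0 < η) :
    ∀ᶠ X in atTop, ∀ h : ℝ, 0 < h → h ≤ X →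
      volume.real {x | x ∈ Set.Icc X (2 * X) ∧
        ε * h < (psi (x + h) - theta (x + h)) - (psi x - theta x)} ≤ η * X := by
  set C := 8 / (ε * η) with hC
  filter_upwards [(isLittleO_log_rpow_atTop (show (0 : ℝ) < 1 / 2 by norm_num)).def
    (show 0 < 1 / (2 * C) by positivity), eventually_ge_atTop (3 : ℝ)] with X hlog hX h hh hhX
  have hX0 : 0 < X := by linarith
  set R := fun x : ℝ => psi x - theta x with hR
  have hRm : Monotone R := psiSubTheta_mono
  have hR0 : ∀ x, 0 ≤ R x := fun x => sub_nonneg.2 (Chebyshev.theta_le_psi x)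
  set f := fun x => R (x + h) - R x with hf
  have hf0 : ∀ x, 0 ≤ f x := fun x => sub_nonneg.2 (hRm (by linarith))
  have hint : ∀ u v : ℝ, IntervalIntegrable R volume u v := fun u v =>
    hRm.intervalIntegrable
  have hshift : IntervalIntegrable (fun x => R (x + h)) volume X (2 * X) :=
    Monotone.intervalIntegrable fun x y hxy => hRm (by linarith)
  have hbound : ∫ x in X..2 * X, f x ≤ h * R (3 * X) := by
    rw [intervalIntegral.integral_sub hshift (hint _ _),
      intervalIntegral.integral_comp_add_right,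
      ← intervalIntegral.integral_add_adjacent_intervals (hint (X + h) (2 * X))
        (hint _ (2 * X + h)),
      ← intervalIntegral.integral_add_adjacent_intervals (hint X (X + h)) (hint _ (2 * X))]
    have h1 : ∫ x in (2 * X)..(2 * X + h), R x ≤ ∫ _x in (2 * X)..(2 * X + h), R (3 * X) :=
      intervalIntegral.integral_mono_on (by linarith) (hint _ _) intervalIntegrable_const
        fun x hx => hRm (by linarith [hx.2])
    have h2 : 0 ≤ ∫ x in X..(X + h), R x :=
      intervalIntegral.integral_nonneg (by linarith) fun x _ => hR0 x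
    rw [intervalIntegral.integral_const, smul_eq_mul, add_sub_cancel_left] at h1
    linarith
  set S := {x | ε * h < f x} with hS
  have hfmeas : Measurable f :=
    (hRm.measurable.comp (measurable_id.add_const h)).sub hRm.measurable
  have hmarkov : ε * h * volume.real ({x | ε * h ≤ f x} ∩ Set.Icc X (2 * X)) ≤
      ∫ x in X..2 * X, f x := by
    rw [intervalIntegral.integral_of_le (by linarith), ← integral_Icc_eq_integral_Ioc]
    have := mul_meas_ge_le_integral_of_nonneg (μ := volume.restrict (Set.Icc X (2 * X)))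
      (Eventually.of_forall hf0)
      ((intervalIntegrable_iff_integrableOn_Icc_of_le (by linarith)).1 (hshift.sub (hint _ _)))
      (ε * h)
    rwa [measureReal_restrict_apply (measurableSet_le measurable_const hfmeas)] at this
  have hsub : {x | x ∈ Set.Icc X (2 * X) ∧ ε * h < f x} ⊆
      {x | ε * h ≤ f x} ∩ Set.Icc X (2 * X) := fun x hx => ⟨hx.2.le, hx.1⟩
  refine (measureReal_mono hsub (measure_ne_top_of_subset Set.inter_subset_right
    measure_Icc_lt_top.ne)).trans (le_of_mul_le_mul_left ?_ (mul_pos hε hh))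
  refine hmarkov.trans (hbound.trans ?_)
  have hlX : 0 ≤ Real.log X := Real.log_nonneg (by linarith)
  rw [Real.norm_of_nonneg hlX, Real.norm_of_nonneg (Real.rpow_nonneg hX0.le _),
    ← Real.sqrt_eq_rpow] at hlog
  have h3 : R (3 * X) ≤ 2 * (2 * √X) * (2 * Real.log X) := by
    refine (Chebyshev.psi_sub_theta_le (by linarith)).trans ?_
    refine mul_le_mul (mul_le_mul_of_nonneg_left ?_ zero_le_two) ?_
      (Real.log_nonneg (by linarith)) (by positivity)
    · rw [Real.sqrt_le_left (by positivity), mul_pow, Real.sq_sqrt hX0.le]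
      linarith
    · have h4 := Real.log_le_log (by linarith) (show 3 * X ≤ X ^ 2 by nlinarith)
      rwa [Real.log_pow, Nat.cast_ofNat] at h4
  calc h * R (3 * X) ≤ h * (2 * (2 * √X) * (2 * (1 / (2 * C) * √X))) := by
        refine mul_le_mul_of_nonneg_left (h3.trans ?_) hh.le
        gcongr
    _ = h * (4 / C) * (√X * √X) := by field_simp; ring
    _ = ε * h * (η * X) * (1 / 2) := by
        rw [Real.mul_self_sqrt hX0.le, hC]
        field_simp
        ring
    _ ≤ _ := mul_le_of_le_one_right (by positivity) (by norm_num)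

lemma primeCount_diff (x h : ℝ) (hh : 0 ≤ h) :
    (Nat.primeCounting ⌊x + h⌋₊ : ℝ) - Nat.primeCounting ⌊x⌋₊ =
      ((Nat.primesLE ⌊x + h⌋₊ \ Nat.primesLE ⌊x⌋₊).card : ℝ) := by
  have hsub : Nat.primesLE ⌊x⌋₊ ⊆ Nat.primesLE ⌊x + h⌋₊ := fun n hn => by
    simp only [Nat.mem_primesLE] at hn ⊢
    exact ⟨hn.1.trans (Nat.floor_mono (by linarith)), hn.2⟩
  rw [Finset.cast_card_sdiff hsub, Nat.primesLE_card_eq_primeCounting,
    Nat.primesLE_card_eq_primeCounting]

/-- From `θ` to `π`. -/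
lemma primeCount_of_theta {x h δ : ℝ} (hx : 2 ≤ x) (hh : 0 < h) (hhx : h ≤ x) (hδ0 : 0 < δ)
    (hδ4 : δ ≤ 1 / 4) (hlogx : 1 / δ ≤ Real.log x)
    (hth : |theta (x + h) - theta x - h| ≤ 2 * δ * h) :
    |((Nat.primeCounting ⌊x + h⌋₊ : ℝ) - Nat.primeCounting ⌊x⌋₊) * Real.log x - h| ≤
      4 * δ * h := by
  have hx0 : 0 < x := by linarith
  set A := Nat.primesLE ⌊x⌋₊ with hA
  set B := Nat.primesLE ⌊x + h⌋₊ with hB
  have hsub : A ⊆ B := fun n hn => by
    simp only [hA, hB, Nat.mem_primesLE] at hn ⊢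
    exact ⟨hn.1.trans (Nat.floor_mono (by linarith)), hn.2⟩
  have hdiff : theta (x + h) - theta x = ∑ n ∈ B \ A, Real.log n := by
    rw [Chebyshev.theta_eq_sum_primesLE, Chebyshev.theta_eq_sum_primesLE, ← hA, ← hB,
      ← Finset.sum_sdiff hsub]
    ring
  have hmem : ∀ n ∈ B \ A, x < (n : ℝ) ∧ (n : ℝ) ≤ x + h := by
    intro n hn
    simp only [hA, hB, Finset.mem_sdiff, Nat.mem_primesLE, not_and] at hn
    refine ⟨?_, (Nat.cast_le.2 hn.1.1).trans (Nat.floor_le (by linarith))⟩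
    exact Nat.lt_of_floor_lt (not_le.1 fun hle => hn.2 hle hn.1.2)
  have hlo : ((B \ A).card : ℝ) * Real.log x ≤ theta (x + h) - theta x := by
    rw [hdiff, ← nsmul_eq_mul]
    exact Finset.card_nsmul_le_sum _ _ _ fun n hn => Real.log_le_log hx0 (hmem n hn).1.le
  have hhi : theta (x + h) - theta x ≤ ((B \ A).card : ℝ) * (Real.log x + 1) := by
    rw [hdiff, ← nsmul_eq_mul]
    refine Finset.sum_le_card_nsmul _ _ _ fun n hn => ?_
    refine (Real.log_le_log (by linarith [(hmem n hn).1])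
      ((hmem n hn).2.trans (show x + h ≤ 2 * x by linarith))).trans ?_
    rw [Real.log_mul two_ne_zero hx0.ne']
    linarith [Real.log_le_sub_one_of_pos (show (0 : ℝ) < 2 by norm_num)]
  rw [primeCount_diff x h hh.le, ← hA, ← hB]
  set N := ((B \ A).card : ℝ) with hN
  rw [div_le_iff₀ hδ0] at hlogx
  have hth' := abs_le.1 hth
  have hN2 : N ≤ δ * (N * Real.log x) := by
    have := mul_le_mul_of_nonneg_left hlogx (show (0 : ℝ) ≤ N from Nat.cast_nonneg _)
    linarith
  have hN3 : δ * (N * Real.log x) ≤ δ * ((1 + 2 * δ) * h) :=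
    mul_le_mul_of_nonneg_left (by linarith) hδ0.le
  have hδ2 : δ * ((1 + 2 * δ) * h) ≤ δ * (2 * h) := by gcongr; linarith
  rw [abs_le]
  constructor <;> linarith

/-- **`θ` and `π` in almost all short intervals.** -/
theorem primes_almost_of_density (H : FreeRate) {c D : ℝ} {A : ℕ} (hc2 : 2 ≤ c)
    (hD : DensityBound c D A) {θ : ℝ} (hθ : 1 - 2 / c < θ) {ε η : ℝ} (hε : 0 < ε)
    (hη : 0 < η) :
    ∀ᶠ X in atTop, ∀ h : ℝ, X ^ θ ≤ h → h ≤ X →
      volume.real {x | x ∈ Set.Icc X (2 * X) ∧ (ε * h < |theta (x + h) - theta x - h| ∨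
        ε * (h / Real.log x) < |(Nat.primeCounting ⌊x + h⌋₊ : ℝ) - Nat.primeCounting ⌊x⌋₊ -
          h / Real.log x|)} ≤ η * X := by
  obtain ⟨δ, hδdef⟩ : ∃ δ, δ = min ε 1 / 4 := ⟨_, rfl⟩
  have hδ0 : 0 < δ := by rw [hδdef]; positivity
  have hδ4 : δ ≤ 1 / 4 := by rw [hδdef]; linarith [min_le_right ε 1]
  have hδε : 4 * δ ≤ ε := by rw [hδdef]; linarith [min_le_left ε 1]
  filter_upwards [psi_almost_of_density H hc2 hD hθ hδ0 (half_pos hη),
    primePow_almost hδ0 (half_pos hη),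
    eventually_ge_atTop (2 : ℝ), Real.tendsto_log_atTop.eventually_ge_atTop (1 / δ)]
    with X hpsi hpp hX hlX h hh hhX
  have hX0 : 0 < X := by linarith
  have hh0 : 0 < h := (Real.rpow_pos_of_pos hX0 _).trans_le hh
  set B₁ := {x | x ∈ Set.Icc X (2 * X) ∧ δ * h < |psi (x + h) - psi x - h|} with hB₁
  set B₂ := {x | x ∈ Set.Icc X (2 * X) ∧
    δ * h < (psi (x + h) - theta (x + h)) - (psi x - theta x)} with hB₂
  have hfin1 : volume B₁ ≠ ⊤ :=
    measure_ne_top_of_subset (fun y hy => hy.1) measure_Icc_lt_top.ne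
  have hfin2 : volume B₂ ≠ ⊤ :=
    measure_ne_top_of_subset (fun y hy => hy.1) measure_Icc_lt_top.ne
  refine (measureReal_mono (s₂ := B₁ ∪ B₂) ?_ (measure_union_ne_top hfin1 hfin2)).trans
    ((measureReal_union_le _ _).trans ?_)
  · rintro x ⟨hx, hlt⟩
    by_contra hnot
    rw [Set.mem_union, not_or] at hnot
    have g1 : |psi (x + h) - psi x - h| ≤ δ * h := not_lt.1 fun hc => hnot.1 ⟨hx, hc⟩
    have g2 : (psi (x + h) - theta (x + h)) - (psi x - theta x) ≤ δ * h :=
      not_lt.1 fun hc => hnot.2 ⟨hx, hc⟩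
    have g3 : 0 ≤ (psi (x + h) - theta (x + h)) - (psi x - theta x) :=
      sub_nonneg.2 (psiSubTheta_mono (show x ≤ x + h by linarith))
    have hth : |theta (x + h) - theta x - h| ≤ 2 * δ * h := by
      obtain ⟨a1, a2⟩ := abs_le.1 g1
      rw [abs_le]
      constructor <;> linarith
    have hδh : 4 * δ * h ≤ ε * h := mul_le_mul_of_nonneg_right hδε hh0.le
    have hlx : 1 / δ ≤ Real.log x := hlX.trans (Real.log_le_log hX0 hx.1)
    have hpi := primeCount_of_theta (by linarith [hx.1]) hh0 (by linarith [hx.1]) hδ0 hδ4 hlx hth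
    rcases hlt with hlt | hlt
    · nlinarith
    · have hl0 : 0 < Real.log x := (one_div_pos.2 hδ0).trans_le hlx
      rw [← not_le] at hlt
      refine hlt ?_
      rw [← mul_le_mul_iff_left₀ hl0]
      calc |(Nat.primeCounting ⌊x + h⌋₊ : ℝ) - Nat.primeCounting ⌊x⌋₊ - h / Real.log x| *
            Real.log x
          = |((Nat.primeCounting ⌊x + h⌋₊ : ℝ) - Nat.primeCounting ⌊x⌋₊) * Real.log x - h| := by
            rw [← abs_of_pos hl0, ← abs_mul, abs_of_pos hl0, sub_mul, div_mul_cancel₀ _ hl0.ne']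
        _ ≤ ε * h := hpi.trans hδh
        _ = _ := by field_simp
  · linarith [hpsi h hh hhX, hpp h hh0 hhX]

/-- Intervals without primes, in a dyadic block. -/
theorem noPrime_block_of_density (H : FreeRate) {c D : ℝ} {A : ℕ} (hc2 : 2 ≤ c)
    (hD : DensityBound c D A) {θ : ℝ} (hθ : 1 - 2 / c < θ) {η : ℝ} (hη : 0 < η) :
    ∀ᶠ W in atTop, volume.real {x : ℝ | x ∈ Set.Icc W (2 * W) ∧
      ∀ p : ℕ, p.Prime → ¬(x < p ∧ (p : ℝ) ≤ x + x ^ θ)} ≤ η * W := by
  have h2c : 2 / c ≤ 1 := (div_le_one (by linarith)).2 hc2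
  set θ' := min θ 1 with hθ'
  have h4 : 1 - 2 / c < θ' := lt_min hθ (by linarith [show 0 < 2 / c by positivity])
  filter_upwards [primes_almost_of_density H hc2 hD h4 (show (0 : ℝ) < 1 / 2 by norm_num) hη,
    eventually_ge_atTop (2 : ℝ)] with W hW hW2
  have hW0 : 0 < W := by linarith
  set h := W ^ θ' with hh
  have hhW : h ≤ W := by
    calc W ^ θ' ≤ W ^ (1 : ℝ) :=
          Real.rpow_le_rpow_of_exponent_le (by linarith) (min_le_right _ _)
      _ = W := Real.rpow_one W
  refine le_trans (measureReal_mono ?_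
    (measure_ne_top_of_subset (fun y hy => hy.1) measure_Icc_lt_top.ne)) (hW h le_rfl hhW)
  rintro x ⟨hx, hno⟩
  refine ⟨hx, Or.inr ?_⟩
  have hx1 : 1 < x := by linarith [hx.1]
  have hh0 : 0 < h := Real.rpow_pos_of_pos hW0 _
  have hle : h ≤ x ^ θ :=
    (Real.rpow_le_rpow hW0.le hx.1 (by linarith)).trans
      (Real.rpow_le_rpow_of_exponent_le hx1.le (min_le_left _ _))
  have hempty : Nat.primesLE ⌊x + h⌋₊ \ Nat.primesLE ⌊x⌋₊ = ∅ := by
    refine Finset.eq_empty_of_forall_notMem fun p hp => ?_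
    simp only [Finset.mem_sdiff, Nat.mem_primesLE, not_and] at hp
    refine hno p hp.1.2 ⟨?_, ?_⟩
    · exact Nat.lt_of_floor_lt (not_le.1 fun hle => hp.2 hle hp.1.2)
    · linarith [(Nat.cast_le.2 hp.1.1).trans (Nat.floor_le (show (0 : ℝ) ≤ x + h by linarith))]
  rw [primeCount_diff x h hh0.le, hempty, Finset.card_empty, Nat.cast_zero, zero_sub, abs_neg]
  have hpos : 0 < h / Real.log x := div_pos hh0 (Real.log_pos hx1)
  rw [abs_of_pos hpos]
  linarith

/-- **Almost every interval `(x, x + x ^ θ]` contains a prime.** -/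
theorem prime_almost_every_of_density (H : FreeRate) {c D : ℝ} {A : ℕ} (hc2 : 2 ≤ c)
    (hD : DensityBound c D A) {θ : ℝ} (hθ : 1 - 2 / c < θ) {η : ℝ} (hη : 0 < η) :
    ∀ᶠ X in atTop, volume.real {x : ℝ | x ∈ Set.Icc 0 X ∧
      ∀ p : ℕ, p.Prime → ¬(x < p ∧ (p : ℝ) ≤ x + x ^ θ)} ≤ η * X := by
  obtain ⟨J, hJ⟩ := exists_pow_lt_of_lt_one (half_pos hη) (show (1 : ℝ) / 2 < 1 by norm_num)
  obtain ⟨W₀, hW₀⟩ := eventually_atTop.1 (noPrime_block_of_density H hc2 hD hθ (half_pos hη))
  filter_upwards [eventually_ge_atTop (max 1 (2 ^ J * max W₀ 1))] with X hX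
  have hX1 : 1 ≤ X := (le_max_left _ _).trans hX
  set bad := {x : ℝ | ∀ p : ℕ, p.Prime → ¬(x < p ∧ (p : ℝ) ≤ x + x ^ θ)} with hbad
  suffices key : ∀ j ≤ J, volume.real (Set.Icc 0 X ∩ bad) ≤
      volume.real (Set.Icc 0 (X * (1 / 2) ^ j) ∩ bad) + η / 2 * (X * (1 - (1 / 2) ^ j)) by
    refine (le_of_eq rfl).trans ((key J le_rfl).trans ?_)
    have h1 : volume.real (Set.Icc 0 (X * (1 / 2) ^ J) ∩ bad) ≤ X * (1 / 2) ^ J := by
      refine (measureReal_mono Set.inter_subset_left measure_Icc_lt_top.ne).trans ?_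
      rw [Real.volume_real_Icc_of_le (by positivity), sub_zero]
    have h2 : X * (1 / 2) ^ J ≤ X * (η / 2) := mul_le_mul_of_nonneg_left hJ.le (by linarith)
    have h3 : η / 2 * (X * (1 - (1 / 2) ^ J)) ≤ η / 2 * X := by
      refine mul_le_mul_of_nonneg_left (mul_le_of_le_one_right (by linarith) ?_) (by linarith)
      linarith [show (0 : ℝ) ≤ (1 / 2) ^ J by positivity]
    linarith
  intro j hj
  induction j with
  | zero => simp
  | succ j ih =>
    refine (ih (by omega)).trans ?_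
    set W := X * (1 / 2) ^ (j + 1) with hW
    have h2W : X * (1 / 2) ^ j = 2 * W := by rw [hW, pow_succ]; ring
    have hWlow : W₀ ≤ W := by
      have h1 : X * (1 / 2) ^ J ≤ W := by
        rw [hW]
        refine mul_le_mul_of_nonneg_left ?_ (by linarith)
        exact pow_le_pow_of_le_one (by norm_num) (by norm_num) hj
      have h2 : max W₀ 1 ≤ X * (1 / 2) ^ J := by
        rw [one_div_pow, ← div_eq_mul_one_div, le_div_iff₀ (by positivity), mul_comm]
        exact (le_max_right _ _).trans hX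
      exact (le_max_left _ _).trans (h2.trans h1)
    rw [h2W]
    have hsplit : Set.Icc 0 (2 * W) ∩ bad ⊆ (Set.Icc 0 W ∩ bad) ∪ (Set.Icc W (2 * W) ∩ bad) := by
      rintro x ⟨hx, hb⟩
      rcases le_total x W with h | h
      · exact Or.inl ⟨⟨hx.1, h⟩, hb⟩
      · exact Or.inr ⟨⟨h, hx.2⟩, hb⟩
    have hfin : ∀ u v : ℝ, volume (Set.Icc u v ∩ bad) ≠ ⊤ := fun u v =>
      measure_ne_top_of_subset Set.inter_subset_left measure_Icc_lt_top.ne
    have h3 := (measureReal_mono hsplit (measure_union_ne_top (hfin _ _) (hfin _ _))).trans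
      (measureReal_union_le _ _)
    have h4 : volume.real (Set.Icc W (2 * W) ∩ bad) ≤ η / 2 * W := hW₀ W hWlow
    have h5 : X * (1 - (1 / 2) ^ (j + 1)) = X * (1 - (1 / 2) ^ j) + W := by
      rw [hW, pow_succ]; ring
    rw [h5, mul_add]
    linarith

/-- **Long gaps between primes have total length `o (x)`.** -/
theorem long_gaps_of_density (H : FreeRate) {c D : ℝ} {A : ℕ} (hc2 : 2 ≤ c)
    (hD : DensityBound c D A) {θ : ℝ} (hθ : 1 - 2 / c < θ) {η : ℝ} (hη : 0 < η) :
    ∀ᶠ X in atTop,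
      ∑ n ∈ (Finset.range (Nat.primeCounting ⌊X⌋₊)).filter (fun n =>
          (Nat.nth Nat.Prime n : ℝ) ^ θ < (Nat.nth Nat.Prime (n + 1) : ℝ) - Nat.nth Nat.Prime n),
        ((Nat.nth Nat.Prime (n + 1) : ℝ) - Nat.nth Nat.Prime n) ≤ η * X := by
  classical
  have h2c : 2 / c ≤ 1 := (div_le_one (by linarith)).2 hc2
  set θ' := θ / 2 + (1 - 2 / c) / 2 with hθ'
  have h4 : 1 - 2 / c < θ' := by rw [hθ']; linarith
  have hθ0 : 0 ≤ θ' := by linarith
  obtain ⟨P, hP⟩ := eventually_atTop.1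
    ((tendsto_rpow_atTop (show 0 < θ - θ' by rw [hθ']; linarith)).eventually_ge_atTop
      ((2 : ℝ) ^ (θ' + 1)))
  filter_upwards [(tendsto_id.const_mul_atTop two_pos).eventually
      (prime_almost_every_of_density H hc2 hD h4 (show 0 < η / 8 by positivity)),
    eventually_ge_atTop (max (max 1 (8 * max P 0 / η)) (2 : ℝ))] with X hbadX hX
  have hX2 : 2 ≤ X := (le_max_right _ _).trans hX
  have hXP : 8 * max P 0 / η ≤ X := ((le_max_right _ _).trans (le_max_left _ _)).trans hX
  set p : ℕ → ℕ := Nat.nth Nat.Prime with hp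
  set g : ℕ → ℝ := fun n => (p (n + 1) : ℝ) - p n with hg
  set G := (Finset.range (Nat.primeCounting ⌊X⌋₊)).filter fun n => (p n : ℝ) ^ θ < g n with hG
  show ∑ n ∈ G, g n ≤ η * X
  set I : ℕ → Set ℝ := fun n => Set.Ico (p n : ℝ) ((p n : ℝ) + g n / 2) with hI
  set bad := {x : ℝ | x ∈ Set.Icc 0 (2 * X) ∧
    ∀ q : ℕ, q.Prime → ¬(x < q ∧ (q : ℝ) ≤ x + x ^ θ')} with hbad
  have hinf := Nat.infinite_setOfPred_prime
  have hmono : StrictMono p := Nat.nth_strictMono hinf
  have hprime : ∀ n, (p n).Prime := fun n => Nat.nth_mem_of_infinite hinf n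
  have hg0 : ∀ n, 0 ≤ g n := fun n =>
    sub_nonneg.2 (Nat.cast_le.2 (hmono.monotone n.le_succ))
  have hgle : ∀ n, g n ≤ p n := by
    intro n
    obtain ⟨q, hq, hq1, hq2⟩ := Nat.exists_prime_lt_and_le_two_mul (p n) (hprime n).ne_zero
    have h1 : p (n + 1) ≤ q := by
      by_contra hc
      rw [not_le] at hc
      obtain ⟨m, hm⟩ : ∃ m, p m = q := ⟨_, Nat.nth_count hq⟩
      rw [← hm] at hq1 hc
      have := hmono.lt_iff_lt.1 hq1
      have := hmono.lt_iff_lt.1 hc
      omega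
    have h2 : (p (n + 1) : ℝ) ≤ 2 * p n := by exact_mod_cast h1.trans hq2
    simp only [hg]
    linarith
  have hpX : ∀ n ∈ G, (p n : ℝ) ≤ X := by
    intro n hn
    have h1 := Nat.nth_lt_of_lt_count (p := Nat.Prime)
      (Finset.mem_range.1 (Finset.mem_filter.1 hn).1)
    exact le_trans (by exact_mod_cast Nat.lt_succ_iff.1 h1) (Nat.floor_le (by linarith))
  have hsub : ∀ n ∈ G, I n ⊆ Set.Icc 0 (2 * max P 0) ∪ bad := by
    intro n hn x hx
    obtain ⟨hx1, hx2⟩ := hx
    have hpn0 : (0 : ℝ) < p n := Nat.cast_pos.2 (hprime n).pos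
    have hx0 : 0 < x := hpn0.trans_le hx1
    have h2p : x ≤ 2 * p n := by linarith [hgle n, hg0 n]
    rcases le_or_gt x (2 * max P 0) with hsmall | hlarge
    · exact Or.inl ⟨hx0.le, hsmall⟩
    refine Or.inr ⟨⟨hx0.le, by linarith [hpX n hn]⟩, fun q hq ⟨hq1, hq2⟩ => ?_⟩
    have hPp : P ≤ p n := by linarith [le_max_left P 0]
    have hlt : x + x ^ θ' < p (n + 1) := by
      have h1 : 2 * x ^ θ' ≤ g n := by
        refine le_trans ?_ (Finset.mem_filter.1 hn).2.le
        calc 2 * x ^ θ' ≤ 2 * ((2 * p n : ℝ) ^ θ') := by gcongr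
          _ = (2 : ℝ) ^ (θ' + 1) * (p n : ℝ) ^ θ' := by
            rw [Real.mul_rpow zero_le_two hpn0.le, Real.rpow_add_one two_ne_zero]
            ring
          _ ≤ (p n : ℝ) ^ (θ - θ') * (p n : ℝ) ^ θ' := by
            gcongr
            exact hP _ hPp
          _ = _ := by rw [← Real.rpow_add hpn0, sub_add_cancel]
      have : x < p n + g n / 2 := hx2
      simp only [hg] at h1 this ⊢
      linarith
    have hq1' : p n < q := by exact_mod_cast hx1.trans_lt hq1
    have hq2' : q < p (n + 1) := by exact_mod_cast hq2.trans_lt hlt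
    obtain ⟨m, rfl⟩ : ∃ m, p m = q := ⟨_, Nat.nth_count hq⟩
    have := hmono.lt_iff_lt.1 hq1'
    have := hmono.lt_iff_lt.1 hq2'
    omega
  have hdisj : (G : Set ℕ).PairwiseDisjoint I := by
    intro a _ b _ hab
    refine Set.disjoint_left.2 fun x ha hb => ?_
    rcases lt_or_gt_of_ne hab with h | h
    · have h1 : (p (a + 1) : ℝ) ≤ p b := Nat.cast_le.2 (hmono.monotone h)
      have := hg0 a
      simp only [hg] at this
      simp only [hI, Set.mem_Ico, hg] at ha hb
      linarith [ha.2, hb.1]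
    · have h1 : (p (b + 1) : ℝ) ≤ p a := Nat.cast_le.2 (hmono.monotone h)
      have := hg0 b
      simp only [hg] at this
      simp only [hI, Set.mem_Ico, hg] at ha hb
      linarith [hb.2, ha.1]
  have hfin : volume (Set.Icc 0 (2 * max P 0) ∪ bad) ≠ ⊤ :=
    measure_union_ne_top measure_Icc_lt_top.ne
      (measure_ne_top_of_subset (fun y hy => hy.1) measure_Icc_lt_top.ne)
  have h1 : ∑ n ∈ G, g n / 2 ≤ 2 * max P 0 + η / 8 * (2 * X) := by
    calc ∑ n ∈ G, g n / 2 = ∑ n ∈ G, volume.real (I n) := by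
          refine Finset.sum_congr rfl fun n _ => ?_
          rw [Real.volume_real_Ico_of_le (by linarith [hg0 n]), add_sub_cancel_left]
      _ = volume.real (⋃ n ∈ G, I n) := (measureReal_biUnion_finset hdisj
          (fun n _ => measurableSet_Ico) (fun n _ => measure_Ico_lt_top.ne)).symm
      _ ≤ volume.real (Set.Icc 0 (2 * max P 0) ∪ bad) :=
          measureReal_mono (Set.iUnion₂_subset hsub) hfin
      _ ≤ volume.real (Set.Icc 0 (2 * max P 0)) + volume.real bad := measureReal_union_le _ _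
      _ ≤ _ := add_le_add (le_of_eq (by
          rw [Real.volume_real_Icc_of_le (by positivity), sub_zero])) hbadX
  rw [← Finset.sum_div] at h1
  rw [div_le_iff₀ hη] at hXP
  linarith

/-- `θ` and `π` in almost all intervals, `θ > 1/4`. -/
theorem primes_almost (H : FreeRate) {θ : ℝ} (hθ : 1 / 4 < θ) {ε η : ℝ} (hε : 0 < ε)
    (hη : 0 < η) :
    ∀ᶠ X in atTop, ∀ h : ℝ, X ^ θ ≤ h → h ≤ X →
      volume.real {x | x ∈ Set.Icc X (2 * X) ∧ (ε * h < |theta (x + h) - theta x - h| ∨
        ε * (h / Real.log x) < |(Nat.primeCounting ⌊x + h⌋₊ : ℝ) - Nat.primeCounting ⌊x⌋₊ -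
          h / Real.log x|)} ≤ η * X := by
  obtain ⟨C, hD⟩ := ingham_densityBound
  exact primes_almost_of_density H (by norm_num) hD (by norm_num; linarith) hε hη

/-- Almost every interval `(x, x + x ^ θ]` contains a prime, `θ > 1/4`. -/
theorem prime_almost_every (H : FreeRate) {θ : ℝ} (hθ : 1 / 4 < θ) {η : ℝ} (hη : 0 < η) :
    ∀ᶠ X in atTop, volume.real {x : ℝ | x ∈ Set.Icc 0 X ∧
      ∀ p : ℕ, p.Prime → ¬(x < p ∧ (p : ℝ) ≤ x + x ^ θ)} ≤ η * X := by
  obtain ⟨C, hD⟩ := ingham_densityBound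
  exact prime_almost_every_of_density H (by norm_num) hD (by norm_num; linarith) hη

/-- Long gaps have total length `o (x)`, `θ > 1/4`. -/
theorem long_gaps (H : FreeRate) {θ : ℝ} (hθ : 1 / 4 < θ) {η : ℝ} (hη : 0 < η) :
    ∀ᶠ X in atTop,
      ∑ n ∈ (Finset.range (Nat.primeCounting ⌊X⌋₊)).filter (fun n =>
          (Nat.nth Nat.Prime n : ℝ) ^ θ < (Nat.nth Nat.Prime (n + 1) : ℝ) - Nat.nth Nat.Prime n),
        ((Nat.nth Nat.Prime (n + 1) : ℝ) - Nat.nth Nat.Prime n) ≤ η * X := by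
  obtain ⟨C, hD⟩ := ingham_densityBound
  exact long_gaps_of_density H (by norm_num) hD (by norm_num; linarith) hη

end FA.AlmostAllPrimes

end
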