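import Fermat.Agent.AlmostAllPrimes.Variance
import Fermat.Agent.Hoheisel.Rate

/-!
# `ψ` in almost all short intervals

From the mixed difference of `ψ₁`: given a zero-density bound with exponent `c ≥ 2`, for
`θ > 1 - 2/c` and `X ^ θ ≤ h ≤ X`, all `x` in `[X, 2X]` outside a set of measure `o(X)` have
`ψ (x + h) - ψ x = h (1 + o(1))`; Ingham's `c = 8/3` gives `θ > 1/4`.
-/

set_option autoImplicit false

noncomputable section

namespace FA.AlmostAllPrimes

open Filter MeasureTheory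
open FA.ZeroFree (psiOne psiOne_sub_bounds)
open FA.Hoheisel (FreeRate)
open FA.Huxley (DensityBound)
open Chebyshev (psi)

lemma measureReal_preimage_mul_le {s X η : ℝ} (hs : 0 < s) {B : Set ℝ}
    (hfin : volume B ≠ ⊤) (hB : volume.real B ≤ η * (s * X)) :
    volume.real ((s * ·) ⁻¹' B) ≤ η * X := by
  rw [measureReal_def, Real.volume_preimage_mul_left hs.ne', ENNReal.toReal_mul,
    ENNReal.toReal_ofReal (abs_nonneg _), abs_of_pos (inv_pos.2 hs), ← measureReal_def,
    inv_mul_le_iff₀ hs]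
  linarith

/-- Proportional intervals. -/
theorem psi_prop_almost (H : FreeRate) {c D : ℝ} {A : ℕ} (hc2 : 2 ≤ c) (hD : DensityBound c D A)
    {ε₀ : ℝ} (hε₀ : 0 < ε₀) (hε₁ : ε₀ ≤ 1 / c) {ε η : ℝ} (hε : 0 < ε) (hη : 0 < η) :
    ∀ᶠ X in atTop, ∀ l : ℝ, X ^ (-(2 / c) + ε₀) ≤ l → l ≤ 1 →
      volume.real {y | y ∈ Set.Icc X (2 * X) ∧ ε * (l * y) < |psi (y + l * y) - psi y - l * y|} ≤
        η * X := by
  obtain ⟨δ, hδdef⟩ : ∃ δ, δ = min ε 1 / 4 := ⟨_, rfl⟩
  have hδ0 : 0 < δ := by rw [hδdef]; positivity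
  have hδ4 : δ ≤ 1 / 4 := by rw [hδdef]; linarith [min_le_right ε 1]
  have hδε : 4 * δ ≤ ε := by rw [hδdef]; linarith [min_le_left ε 1]
  obtain ⟨Y, hY⟩ := eventually_atTop.1
    (mixed_almost H hc2 hD (show 0 < ε₀ / 2 by positivity) (by linarith) hδ0 (half_pos hη))
  have h2c : 2 / c ≤ 1 := (div_le_one (by linarith)).2 hc2
  filter_upwards [eventually_ge_atTop (max 1 (2 * Y)),
    (tendsto_rpow_atTop (show 0 < ε₀ / 2 by positivity)).eventually_ge_atTop (4 / (3 * δ))]
    with X hX hbig l hl hl1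
  have hX1 : 1 ≤ X := (le_max_left _ _).trans hX
  have hX0 : 0 < X := by linarith
  have hY2 : 2 * Y ≤ X := (le_max_right _ _).trans hX
  have hl0 : 0 < l := (Real.rpow_pos_of_pos hX0 _).trans_le hl
  set s := 1 - δ * l with hs
  have hs34 : 3 / 4 ≤ s := by
    rw [hs]
    nlinarith
  have hs1 : s ≤ 1 := by rw [hs]; nlinarith
  have hs0 : 0 < s := by linarith
  have hlow : ∀ X' : ℝ, 3 / 4 * X ≤ X' → X' ^ (-(2 / c) + ε₀ / 2) ≤ δ * l := by
    intro X' hX'
    rw [div_le_iff₀ (by positivity)] at hbig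
    calc X' ^ (-(2 / c) + ε₀ / 2) ≤ (3 / 4 * X) ^ (-(2 / c) + ε₀ / 2) :=
          Real.rpow_le_rpow_of_nonpos (by positivity) hX' (by
            linarith [show 2 / c = 2 * (1 / c) by ring])
      _ = (3 / 4 : ℝ) ^ (-(2 / c) + ε₀ / 2) * X ^ (-(2 / c) + ε₀ / 2) :=
          Real.mul_rpow (by norm_num) hX0.le
      _ ≤ 4 / 3 * X ^ (-(2 / c) + ε₀ / 2) := by
          refine mul_le_mul_of_nonneg_right ?_ (Real.rpow_nonneg hX0.le _)
          refine (Real.rpow_le_rpow_of_exponent_ge (by norm_num) (by norm_num)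
            (show (-1 : ℝ) ≤ -(2 / c) + ε₀ / 2 by linarith)).trans (le_of_eq ?_)
          rw [Real.rpow_neg_one]
          norm_num
      _ ≤ X ^ (ε₀ / 2) * δ * X ^ (-(2 / c) + ε₀ / 2) := by
          gcongr
          linarith
      _ = δ * X ^ (-(2 / c) + ε₀) := by
          rw [mul_comm _ δ, mul_assoc, ← Real.rpow_add hX0]
          ring_nf
      _ ≤ δ * l := by gcongr
  set a₁ := (1 + δ) * l / s with ha₁
  set b₁ := δ * l / s with hb₁
  set a₂ := (1 - δ) * l with ha₂
  set b₂ := δ * l with hb₂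
  have hdl : 0 < δ * l := mul_pos hδ0 hl0
  have hge : ∀ u, δ * l ≤ u → δ * l ≤ u / s := fun u hu => by
    rw [le_div_iff₀ hs0]
    nlinarith
  have hu1 : δ * l ≤ a₁ := hge _ (by nlinarith)
  have hu2 : δ * l ≤ b₁ := hge _ le_rfl
  have hu3 : δ * l ≤ a₂ := by rw [ha₂]; nlinarith
  have h13 : a₁ ≤ 3 := by
    rw [ha₁, div_le_iff₀ hs0]
    nlinarith
  have h23 : b₁ ≤ 3 := by
    rw [hb₁, div_le_iff₀ hs0]
    nlinarith
  have h33 : a₂ ≤ 3 := by rw [ha₂]; nlinarith
  have h43 : b₂ ≤ 3 := by rw [hb₂]; nlinarith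
  set B₁ := {y | y ∈ Set.Icc (s * X) (2 * (s * X)) ∧
    δ * (a₁ * b₁ * y ^ 2) < |mixedDiff a₁ b₁ y - a₁ * b₁ * y ^ 2|} with hB₁
  set B₂ := {y | y ∈ Set.Icc X (2 * X) ∧
    δ * (a₂ * b₂ * y ^ 2) < |mixedDiff a₂ b₂ y - a₂ * b₂ * y ^ 2|} with hB₂
  have m1 : volume.real B₁ ≤ η / 2 * (s * X) :=
    hY (s * X) (by nlinarith) a₁ b₁ ((hlow _ (by nlinarith)).trans hu1) h13
      ((hlow _ (by nlinarith)).trans hu2) h23
  have m2 : volume.real B₂ ≤ η / 2 * X :=
    hY X (by linarith) a₂ b₂ ((hlow X (by linarith)).trans hu3) h33 (hlow X (by linarith)) h43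
  have hsub : {y | y ∈ Set.Icc X (2 * X) ∧ ε * (l * y) < |psi (y + l * y) - psi y - l * y|} ⊆
      (s * ·) ⁻¹' B₁ ∪ B₂ := by
    rintro y ⟨hy, hlt⟩
    by_contra hnot
    rw [Set.mem_union, not_or] at hnot
    have hy0 : 0 < y := by linarith [hy.1]
    set h := l * y with hh
    set q := δ * h with hq
    have hh0 : 0 < h := by positivity
    have hq0 : 0 < q := mul_pos hδ0 hh0
    have hhy : h ≤ y := mul_le_of_le_one_left hy0.le hl1
    have hqh : q ≤ h / 4 := by rw [hq]; nlinarith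
    have up : psi (y + h) - psi y ≤ (1 + δ) * (h + q) := by
      have hm : |mixedDiff a₁ b₁ (s * y) - a₁ * b₁ * (s * y) ^ 2| ≤
          δ * (a₁ * b₁ * (s * y) ^ 2) := by
        by_contra hc
        exact hnot.1 ⟨⟨mul_le_mul_of_nonneg_left hy.1 hs0.le, by
          have := mul_le_mul_of_nonneg_left hy.2 hs0.le
          linarith⟩, not_le.1 hc⟩
      have e0 : s * y = y - q := by rw [hs, hq, hh]; ring
      have e1 : a₁ * (s * y) = h + q := by
        rw [ha₁, hq, hh]; field_simp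
      have e2 : b₁ * (s * y) = q := by
        rw [hb₁, hb₂, hq, hh]; field_simp
      have e3 : a₁ * b₁ * (s * y) ^ 2 = (h + q) * q := by rw [← e1, ← e2]; ring
      rw [mixedDiff, e3, e1, e2, e0] at hm
      have hb := abs_le.1 hm
      have b1 := (psiOne_sub_bounds (x := y + h) (y := y - q + q + (h + q)) (by linarith)
        (by linarith)).1
      have b2 := (psiOne_sub_bounds (x := y - q) (y := y) (by linarith) (by linarith)).2
      rw [show y - q + (h + q) = y + h by ring, show y - q + q = y by ring] at hb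
      rw [show y - q + q + (h + q) = y + (h + q) by ring,
        show y + (h + q) - (y + h) = q by ring] at b1
      rw [sub_sub_cancel] at b2
      refine le_of_mul_le_mul_left ?_ hq0
      linarith [hb.2]
    have lo : (1 - δ) * (h - q) ≤ psi (y + h) - psi y := by
      have hm : |mixedDiff a₂ b₂ y - a₂ * b₂ * y ^ 2| ≤ δ * (a₂ * b₂ * y ^ 2) := by
        by_contra hc
        exact hnot.2 ⟨hy, not_le.1 hc⟩
      have e1 : a₂ * y = h - q := by rw [ha₂, hq, hh]; ring
      have e2 : b₂ * y = q := by rw [hb₂, hq, hh]; ring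
      have e3 : a₂ * b₂ * y ^ 2 = (h - q) * q := by rw [← e1, ← e2]; ring
      rw [mixedDiff, e3, e1, e2] at hm
      have hb := abs_le.1 hm
      have b1 := (psiOne_sub_bounds (x := y + (h - q)) (y := y + h) (by linarith)
        (by linarith)).2
      have b2 := (psiOne_sub_bounds (x := y) (y := y + q) (by linarith) (by linarith)).1
      rw [show y + q + (h - q) = y + h by ring] at hb
      rw [show y + h - (y + (h - q)) = q by ring] at b1
      rw [add_sub_cancel_left] at b2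
      refine le_of_mul_le_mul_left ?_ hq0
      linarith [hb.1]
    have hδh : 4 * δ * h ≤ ε * h := mul_le_mul_of_nonneg_right hδε hh0.le
    have hδq : δ * q ≤ δ * h := by gcongr; linarith
    refine absurd hlt (not_lt.2 (abs_le.2 ?_))
    constructor <;> nlinarith
  have hf1 : volume B₁ ≠ ⊤ :=
    measure_ne_top_of_subset (fun y hy => hy.1) measure_Icc_lt_top.ne
  have hf2 : volume B₂ ≠ ⊤ :=
    measure_ne_top_of_subset (fun y hy => hy.1) measure_Icc_lt_top.ne
  refine (measureReal_mono hsub (measure_union_ne_top ?_ hf2)).trans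
    ((measureReal_union_le _ _).trans ?_)
  · rw [Real.volume_preimage_mul_left hs0.ne']
    exact ENNReal.mul_ne_top ENNReal.ofReal_ne_top hf1
  · linarith [measureReal_preimage_mul_le hs0 hf1 m1]

/-- **`ψ` in almost all intervals of length `h ≥ X ^ θ`, `θ > 1 - 2/c`.** -/
theorem psi_almost_of_density (H : FreeRate) {c D : ℝ} {A : ℕ} (hc2 : 2 ≤ c)
    (hD : DensityBound c D A) {θ : ℝ} (hθ : 1 - 2 / c < θ) {ε η : ℝ} (hε : 0 < ε) (hη : 0 < η) :
    ∀ᶠ X in atTop, ∀ h : ℝ, X ^ θ ≤ h → h ≤ X →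
      volume.real {x | x ∈ Set.Icc X (2 * X) ∧ ε * h < |psi (x + h) - psi x - h|} ≤ η * X := by
  classical
  set ε₀ := min ((θ - (1 - 2 / c)) / 2) (1 / c) with hε₀def
  have hε₀ : 0 < ε₀ := lt_min (by linarith) (one_div_pos.2 (by linarith))
  obtain ⟨δ, hδdef⟩ : ∃ δ, δ = min ε 1 / 4 := ⟨_, rfl⟩
  have hδ0 : 0 < δ := by rw [hδdef]; positivity
  have hδ1 : δ ≤ 1 / 4 := by rw [hδdef]; linarith [min_le_right ε 1]
  have hδε : 4 * δ ≤ ε := by rw [hδdef]; linarith [min_le_left ε 1]
  obtain ⟨K, hK⟩ := exists_nat_gt (1 / δ)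
  have hK0 : (0 : ℝ) < K := (one_div_pos.2 hδ0).trans hK
  have hKδ : 1 / (K : ℝ) ≤ δ := by
    rw [div_lt_iff₀ hδ0] at hK
    rw [div_le_iff₀ hK0]
    linarith
  obtain ⟨Y₀, hY₀⟩ := eventually_atTop.1
    (psi_prop_almost H hc2 hD hε₀ (min_le_right _ _) hδ0 (show 0 < η / (4 * K) by positivity))
  filter_upwards [eventually_ge_atTop (max 1 Y₀),
    (tendsto_rpow_atTop (show 0 < θ - (1 - 2 / c) - ε₀ by
      have := min_le_left ((θ - (1 - 2 / c)) / 2) (1 / c)
      rw [hε₀def]; linarith)).eventually_ge_atTop 4] with X hX hbig h hh hhX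
  have hX1 : 1 ≤ X := (le_max_left _ _).trans hX
  have hX0 : 0 < X := by linarith
  have hh0 : 0 < h := (Real.rpow_pos_of_pos hX0 _).trans_le hh
  set Y : ℕ → ℝ := fun j => X + (j : ℝ) * (X / K) with hYdef
  set bad : ℝ → ℝ → Set ℝ := fun W l =>
    {y | y ∈ Set.Icc W (2 * W) ∧ δ * (l * y) < |psi (y + l * y) - psi y - l * y|} with hbad
  have hYj : ∀ j ∈ Finset.range K, X ≤ Y j ∧ Y j + X / K ≤ 2 * X := by
    intro j hj
    have hjK : (j : ℝ) + 1 ≤ K := by exact_mod_cast Finset.mem_range.1 hj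
    refine ⟨le_add_of_nonneg_right (by positivity), ?_⟩
    have := mul_le_mul_of_nonneg_right hjK (show 0 ≤ X / K by positivity)
    rw [mul_div_cancel₀ X hK0.ne'] at this
    simp only [hYdef]
    linarith
  have hl : ∀ D, X ≤ D → D ≤ 2 * X → D ^ (-(2 / c) + ε₀) ≤ h / (2 * D) := by
    intro D hD hD2
    rw [le_div_iff₀ (by linarith)]
    calc D ^ (-(2 / c) + ε₀) * (2 * D) ≤ X ^ (-(2 / c) + ε₀) * (2 * D) := by
          refine mul_le_mul_of_nonneg_right (Real.rpow_le_rpow_of_nonpos hX0 hD ?_) (by linarith)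
          linarith [min_le_right ((θ - (1 - 2 / c)) / 2) (1 / c),
            show (0 : ℝ) < 1 / c by exact one_div_pos.2 (by linarith),
            show 2 / c = 2 * (1 / c) by ring]
      _ ≤ X ^ (-(2 / c) + ε₀) * (4 * X) :=
          mul_le_mul_of_nonneg_left (by linarith) (Real.rpow_nonneg hX0.le _)
      _ = 4 * X ^ (1 - 2 / c + ε₀) := by
          rw [mul_left_comm, ← Real.rpow_add_one hX0.ne']
          ring_nf
      _ ≤ 4 * (X ^ θ / 4) := by
          refine mul_le_mul_of_nonneg_left ?_ (by norm_num)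
          rw [le_div_iff₀ (by norm_num : (0 : ℝ) < 4)]
          calc X ^ (1 - 2 / c + ε₀) * 4
              ≤ X ^ (1 - 2 / c + ε₀) * X ^ (θ - (1 - 2 / c) - ε₀) := by gcongr
            _ = X ^ θ := by rw [← Real.rpow_add hX0]; ring_nf
      _ ≤ h := by linarith
  have hsub : {x | x ∈ Set.Icc X (2 * X) ∧ ε * h < |psi (x + h) - psi x - h|} ⊆
      ⋃ j ∈ Finset.range K, bad (Y j) (h / Y j) ∪ bad (Y j) (h / (Y j + X / K)) := by
    rintro x ⟨hx, hlt⟩
    set j := min ⌊(x - X) / (X / K)⌋₊ (K - 1) with hj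
    have hjK : j < K := lt_of_le_of_lt (min_le_right _ _) (by
      have : 0 < K := by exact_mod_cast hK0
      omega)
    obtain ⟨h1, h2⟩ := hYj j (Finset.mem_range.2 hjK)
    have hxl : Y j ≤ x := by
      have : (j : ℝ) ≤ (x - X) / (X / K) :=
        le_trans (Nat.cast_le.2 (min_le_left _ _))
          (Nat.floor_le (div_nonneg (by linarith [hx.1]) (by positivity)))
      rw [le_div_iff₀ (by positivity)] at this
      simp only [hYdef]
      linarith
    have hxu : x ≤ Y j + X / K := by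
      rcases le_or_gt (⌊(x - X) / (X / K)⌋₊) (K - 1) with hle | hgt
      · rw [hj, min_eq_left hle]
        have := Nat.lt_floor_add_one ((x - X) / (X / K))
        rw [div_lt_iff₀ (by positivity)] at this
        simp only [hYdef]
        linarith
      · rw [hj, min_eq_right hgt.le]
        have hK1 : ((K - 1 : ℕ) : ℝ) = (K : ℝ) - 1 := by
          rw [Nat.cast_sub (by omega)]; norm_num
        simp only [hYdef, hK1]
        rw [sub_one_mul, mul_div_cancel₀ X hK0.ne']
        linarith [hx.2]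
    rw [Set.mem_iUnion₂]
    refine ⟨j, Finset.mem_range.2 hjK, ?_⟩
    by_contra hnot
    rw [Set.mem_union, not_or] at hnot
    set Y' := Y j with hY'
    have hY0 : 0 < Y' := by linarith
    have hx0 : 0 < x := by linarith
    have hXK0 : 0 ≤ X / K := by positivity
    have hmem : x ∈ Set.Icc Y' (2 * Y') := ⟨hxl, by
      have : X / K ≤ X * δ := by
        calc X / K = X * (1 / K) := by ring
          _ ≤ X * δ := by gcongr
      nlinarith⟩
    have g1 : |psi (x + h / Y' * x) - psi x - h / Y' * x| ≤ δ * (h / Y' * x) := by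
      by_contra hc
      exact hnot.1 ⟨hmem, not_le.1 hc⟩
    have g2 : |psi (x + h / (Y' + X / K) * x) - psi x - h / (Y' + X / K) * x| ≤
        δ * (h / (Y' + X / K) * x) := by
      by_contra hc
      exact hnot.2 ⟨hmem, not_le.1 hc⟩
    have hXK : X / K ≤ δ * Y' := by
      calc X / K = 1 / K * X := by ring
        _ ≤ δ * Y' := mul_le_mul hKδ h1 hX0.le hδ0.le
    have u1 : h ≤ h / Y' * x := by
      rw [div_mul_eq_mul_div, le_div_iff₀ hY0]
      gcongr
    have u2 : h / Y' * x ≤ (1 + δ) * h := by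
      rw [div_mul_eq_mul_div, div_le_iff₀ hY0]
      have h3 : x ≤ (1 + δ) * Y' := by linarith
      calc h * x ≤ h * ((1 + δ) * Y') := by gcongr
        _ = _ := by ring
    have l1 : h / (Y' + X / K) * x ≤ h := by
      rw [div_mul_eq_mul_div, div_le_iff₀ (by linarith)]
      gcongr
    have l2 : (1 - δ) * h ≤ h / (Y' + X / K) * x := by
      rw [div_mul_eq_mul_div, le_div_iff₀ (by linarith)]
      calc (1 - δ) * h * (Y' + X / K) ≤ (1 - δ) * h * ((1 + δ) * Y') := by
            refine mul_le_mul_of_nonneg_left (by linarith) ?_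
            exact mul_nonneg (by linarith) hh0.le
        _ ≤ h * Y' := by nlinarith [mul_pos hh0 hY0, sq_nonneg δ]
        _ ≤ h * x := by gcongr
    have m1 := Chebyshev.psi_mono (show x + h ≤ x + h / Y' * x by linarith)
    have m2 := Chebyshev.psi_mono (show x + h / (Y' + X / K) * x ≤ x + h by linarith)
    obtain ⟨-, g1b⟩ := abs_le.1 g1
    obtain ⟨g2a, -⟩ := abs_le.1 g2
    have hδh : 4 * δ * h ≤ ε * h := mul_le_mul_of_nonneg_right hδε hh0.le
    have e1 : δ * (h / Y' * x) ≤ δ * ((1 + δ) * h) := mul_le_mul_of_nonneg_left u2 hδ0.le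
    have e2 : δ * (h / (Y' + X / K) * x) ≤ δ * h := mul_le_mul_of_nonneg_left l1 hδ0.le
    have e3 : δ * ((1 + δ) * h) ≤ δ * (2 * h) := by gcongr; linarith
    refine absurd hlt (not_lt.2 (abs_le.2 ?_))
    constructor <;> linarith
  have hfin : ∀ W l, volume (bad W l) ≠ ⊤ := fun W l =>
    measure_ne_top_of_subset (fun y hy => hy.1) measure_Icc_lt_top.ne
  refine (measureReal_mono hsub (ne_of_lt ((measure_biUnion_lt_top (Finset.finite_toSet _)
    fun j _ => lt_top_iff_ne_top.2 (measure_union_ne_top (hfin _ _) (hfin _ _)))))).trans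
    ((measureReal_biUnion_finset_le _ _).trans ?_)
  have hb : ∀ j ∈ Finset.range K, ∀ D, Y j ≤ D → D ≤ 2 * X →
      volume.real (bad (Y j) (h / D)) ≤ η / (4 * K) * (2 * X) := by
    intro j hj D hD hD2
    obtain ⟨h1, h2⟩ := hYj j hj
    have hXK : 0 ≤ X / K := by positivity
    refine (hY₀ (Y j) ((le_max_right _ _).trans (hX.trans h1)) _ ?_ ?_).trans ?_
    · exact (hl (Y j) h1 (by linarith)).trans
        (div_le_div_of_nonneg_left hh0.le (by linarith) (by linarith))
    · rw [div_le_one (by linarith)]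
      linarith
    · gcongr
      linarith
  calc ∑ j ∈ Finset.range K, volume.real (bad (Y j) (h / Y j) ∪ bad (Y j) (h / (Y j + X / K)))
      ≤ ∑ _j ∈ Finset.range K, 2 * (η / (4 * K) * (2 * X)) := by
        refine Finset.sum_le_sum fun j hj => (measureReal_union_le _ _).trans ?_
        obtain ⟨h1, h2⟩ := hYj j hj
        have hXK : 0 ≤ X / K := by positivity
        linarith [hb j hj (Y j) le_rfl (by linarith), hb j hj (Y j + X / K) (by linarith) h2]
    _ = η * X := by
        rw [Finset.sum_const, Finset.card_range, nsmul_eq_mul]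
        field_simp
        ring

/-- Ingham's theorem as a density bound. -/
theorem ingham_densityBound : ∃ C, DensityBound (8 / 3) C 13 := by
  obtain ⟨C, hC, h⟩ := FA.Hoheisel.exists_ingham_density
  exact ⟨C, hC, h⟩

/-- **`ψ` in almost all intervals of length `h ≥ X ^ θ`, `θ > 1/4`.** -/
theorem psi_almost (H : FreeRate) {θ : ℝ} (hθ : 1 / 4 < θ) {ε η : ℝ} (hε : 0 < ε) (hη : 0 < η) :
    ∀ᶠ X in atTop, ∀ h : ℝ, X ^ θ ≤ h → h ≤ X →
      volume.real {x | x ∈ Set.Icc X (2 * X) ∧ ε * h < |psi (x + h) - psi x - h|} ≤ η * X := by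
  obtain ⟨C, hD⟩ := ingham_densityBound
  exact psi_almost_of_density H (by norm_num) hD (by norm_num; linarith) hε hη

end FA.AlmostAllPrimes

end
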