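import Fermat.Agent.AlmostAllPrimes.MeanSquare
import Fermat.Agent.Huxley.ShortIntervals
import Mathlib.MeasureTheory.Measure.Lebesgue.Basic

/-!
# The mixed difference of `ψ₁` with proportional steps, on average

Given a zero-density bound with exponent `c ≥ 2`, for steps `a y`, `b y` with
`a, b ≥ X ^ (-2/c + ε₀)` the mixed difference of `ψ₁` at `y` is `a b y² (1 + o(1))` for all `y` in
`[X, 2X]` outside a set of measure `o(X)`.
-/

set_option autoImplicit false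

noncomputable section

namespace FA.AlmostAllPrimes

open Finset Complex Filter MeasureTheory
open FA.RiemannMangoldt (xiFn xiFn_zero_strip)
open FA.ExplicitFormula (zeroTerm zeroWeight zerosUpTo mem_zerosUpTo)
open FA.ZeroFree (psiOne ell four_le_ell)
open FA.Hoheisel (FreeRate)
open FA.Huxley (DensityBound)

/-- The zeros up to `y ^ κ`, `κ < 1/c`, are harmless even after two powers of `log y`. -/
theorem head_small_log (H : FreeRate) {c D : ℝ} {A : ℕ} (hc : 0 < c) (hD : DensityBound c D A)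
    {κ : ℝ} (hκ0 : 0 < κ) (hκ : κ < 1 / c) :
    ∀ ε : ℝ, 0 < ε → ∀ᶠ y in atTop, ∀ S : Finset ℂ, (∀ ρ ∈ S, xiFn ρ = 0 ∧ |ρ.im| ≤ y ^ κ) →
      Real.log y ^ 2 * ∑ ρ ∈ S, (zeroWeight ρ : ℝ) * y ^ (ρ.re - 1) ≤ ε := by
  classical
  obtain ⟨C, hC, hdens⟩ : ∃ C, 0 ≤ C ∧ ∀ σ T : ℝ, 2 ≤ T →
      (FA.Hoheisel.countGe σ T : ℝ) ≤ C * T ^ (c * (1 - σ)) * Real.log T ^ A := ⟨D, hD.1, hD.2⟩
  intro ε hε
  set μ := 1 - c * κ with hμ
  have hμ0 : 0 < μ := by
    rw [hμ]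
    have := (lt_div_iff₀ hc).1 hκ
    linarith
  filter_upwards [(tendsto_rpow_atTop hκ0).eventually (H (((A + 4 : ℕ) : ℝ) * κ / μ)
      (by positivity)),
    (tendsto_rpow_atTop hκ0).eventually_ge_atTop 2,
    (Real.tendsto_log_atTop.comp (tendsto_rpow_atTop hκ0)).eventually_ge_atTop
      (max 1 (2 * C * Real.exp (c) / (κ ^ 2 * ε))), eventually_gt_atTop (1 : ℝ)]
    with y hfree hT hL hy S hS
  simp only [Function.comp_apply] at hL
  set T := y ^ κ with hTdef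
  set L := Real.log T with hLdef
  have hL1 : 1 ≤ L := (le_max_left _ _).trans hL
  have hy0 : 0 < y := by linarith
  have hlogy : Real.log y = L / κ := by
    rw [hLdef, hTdef, Real.log_rpow hy0, mul_div_cancel_left₀ _ hκ0.ne']
  have hterm : ∀ ρ ∈ S, y ^ (ρ.re - 1) ≤
      1 / L ^ (A + 4) * Real.exp (-(c * (⌊(1 - ρ.re) * L⌋₊ : ℝ))) := by
    intro ρ hρ
    obtain ⟨hz, hi⟩ := hS ρ hρ
    set v := 1 - ρ.re with hv
    obtain ⟨-, hv1⟩ := xiFn_zero_strip hz
    have hfl : (⌊v * L⌋₊ : ℝ) ≤ v * L :=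
      Nat.floor_le (mul_nonneg (by linarith) (by linarith))
    have hLpow : 1 / L ^ (A + 4) = Real.exp (-(((A + 4 : ℕ) : ℝ) * Real.log L)) := by
      rw [Real.exp_neg, Real.exp_nat_mul, Real.exp_log (by linarith), one_div]
    have h1 : ((A + 4 : ℕ) : ℝ) * κ * Real.log L ≤ μ * (v * L) := by
      have h := hfree ρ hz hi
      calc ((A + 4 : ℕ) : ℝ) * κ * Real.log L
          = μ * (((A + 4 : ℕ) : ℝ) * κ / μ * (Real.log L / L) * L) := by field_simp
        _ ≤ μ * (v * L) :=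
          mul_le_mul_of_nonneg_left (mul_le_mul_of_nonneg_right h (by linarith)) hμ0.le
    rw [Real.rpow_def_of_pos hy0, hlogy, hLpow, ← Real.exp_add, Real.exp_le_exp,
      show ρ.re - 1 = -v by rw [hv]; ring, div_mul_eq_mul_div, div_le_iff₀ hκ0]
    have h2 := mul_le_mul_of_nonneg_left hfl (show 0 ≤ c * κ by positivity)
    rw [hμ] at h1
    linarith
  rw [← Finset.sum_fiberwise_of_maps_to (t := range (⌊L⌋₊ + 1))
    (g := fun ρ : ℂ => ⌊(1 - ρ.re) * L⌋₊) fun ρ hρ => mem_range.2 (Nat.lt_succ_of_le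
      (Nat.floor_mono (mul_le_of_le_one_left (by linarith)
        (by linarith [(xiFn_zero_strip (hS ρ hρ).1).1]))))]
  have hfib : ∀ m ∈ range (⌊L⌋₊ + 1),
      ∑ ρ ∈ S with ⌊(1 - ρ.re) * L⌋₊ = m, (zeroWeight ρ : ℝ) * y ^ (ρ.re - 1) ≤
        C * Real.exp (c) / L ^ 4 := by
    intro m _
    refine (Finset.sum_le_sum fun ρ hρ => mul_le_mul_of_nonneg_left
      (hterm ρ (Finset.mem_filter.1 hρ).1) (Nat.cast_nonneg _)).trans ?_
    rw [Finset.sum_congr rfl fun ρ hρ => by rw [(Finset.mem_filter.1 hρ).2], ← Finset.sum_mul]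
    have hsub : ∑ ρ ∈ S with ⌊(1 - ρ.re) * L⌋₊ = m, (zeroWeight ρ : ℝ) ≤
        C * Real.exp (c * ((m : ℝ) + 1)) * L ^ A := by
      have h1 := hdens (1 - ((m : ℝ) + 1) / L) T hT
      rw [sub_sub_cancel, Real.rpow_def_of_pos (by linarith), ← hLdef,
        show L * (c * (((m : ℝ) + 1) / L)) = c * ((m : ℝ) + 1) by field_simp] at h1
      refine le_trans ?_ h1
      rw [FA.Hoheisel.countGe, Nat.cast_sum]
      refine Finset.sum_le_sum_of_subset_of_nonneg (fun ρ hρ => ?_)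
        fun ρ _ _ => Nat.cast_nonneg _
      simp only [Finset.mem_filter, mem_zerosUpTo] at hρ ⊢
      refine ⟨hS ρ hρ.1, ?_⟩
      have h2 := Nat.lt_floor_add_one ((1 - ρ.re) * L)
      rw [hρ.2, ← lt_div_iff₀ (by linarith : 0 < L)] at h2
      linarith
    refine (mul_le_mul_of_nonneg_right hsub (by positivity)).trans (le_of_eq ?_)
    rw [mul_add, mul_one, Real.exp_add, Real.exp_neg]
    field_simp
    ring
  refine (mul_le_mul_of_nonneg_left (Finset.sum_le_card_nsmul _ _ _ hfib) (sq_nonneg _)).trans ?_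
  rw [card_range, nsmul_eq_mul, Nat.cast_succ, hlogy]
  have hfl : (⌊L⌋₊ : ℝ) ≤ L := Nat.floor_le (by linarith)
  have hbig := (le_max_right _ _).trans hL
  rw [div_le_iff₀ (by positivity)] at hbig
  calc (L / κ) ^ 2 * (((⌊L⌋₊ : ℝ) + 1) * (C * Real.exp (c) / L ^ 4))
      ≤ (L / κ) ^ 2 * (2 * L * (C * Real.exp (c) / L ^ 4)) := by gcongr; linarith
    _ = 2 * C * Real.exp (c) / (κ ^ 2 * L) := by field_simp
    _ ≤ ε := by rw [div_le_iff₀ (by positivity)]; linarith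

/-- The coefficient of a zero in the mixed difference with steps `a y`, `b y`. -/
def coef (a b : ℝ) (ρ : ℂ) : ℂ :=
  (((1 + b + a : ℝ) : ℂ) ^ (ρ + 1) - ((1 + b : ℝ) : ℂ) ^ (ρ + 1) -
    (((1 + a : ℝ) : ℂ) ^ (ρ + 1) - ((1 : ℝ) : ℂ) ^ (ρ + 1))) / (ρ * (ρ + 1))

lemma zeroTerm_mixed (a b : ℝ) {y : ℝ} (ha : 0 ≤ a) (hb : 0 ≤ b) (hy : 0 ≤ y) (ρ : ℂ) :
    zeroTerm (y + b * y + a * y) ρ - zeroTerm (y + b * y) ρ -
        (zeroTerm (y + a * y) ρ - zeroTerm y ρ) =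
      ((zeroWeight ρ : ℝ) : ℂ) * coef a b ρ * (y : ℂ) ^ (ρ + 1) := by
  have e : ∀ t : ℝ, 0 ≤ t → ((t * y : ℝ) : ℂ) ^ (ρ + 1) = (t : ℂ) ^ (ρ + 1) * (y : ℂ) ^ (ρ + 1) :=
    fun t ht => by rw [ofReal_mul, mul_cpow_ofReal_nonneg ht hy]
  have e1 := e (1 + b + a) (by linarith)
  have e2 := e (1 + b) (by linarith)
  have e3 := e (1 + a) (by linarith)
  rw [show y + b * y + a * y = (1 + b + a) * y by ring]
  simp only [zeroTerm, coef, show y + b * y = (1 + b) * y by ring,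
    show y + a * y = (1 + a) * y by ring, e1, e2, e3, ofReal_one, one_cpow, ofReal_natCast]
  ring

lemma norm_coef_le_mul {a b : ℝ} (ha : 0 ≤ a) (hb : 0 ≤ b) {ρ : ℂ} (hρ : xiFn ρ = 0) :
    ‖coef a b ρ‖ ≤ a * b := by
  obtain ⟨h0, h1⟩ := xiFn_zero_strip hρ
  simpa [coef] using FA.Hoheisel.norm_mixed_le h0 h1 one_pos ha hb

theorem exists_norm_coef_le : ∃ C, 0 ≤ C ∧ ∀ (a b : ℝ), 0 ≤ a → a ≤ 3 → 0 ≤ b → b ≤ 3 →
    ∀ ρ : ℂ, xiFn ρ = 0 → ‖coef a b ρ‖ ≤ C * (1 / (1 + |ρ.im|) ^ 2) := by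
  obtain ⟨c₁, hc₁, hinv⟩ := ExplicitFormula.exists_inv_im_le
  refine ⟨196 * c₁ ^ 2, by positivity, fun a b ha ha3 hb hb3 ρ hρ => ?_⟩
  obtain ⟨h0, h1⟩ := xiFn_zero_strip hρ
  have e : ∀ t : ℝ, 1 ≤ t → t ≤ 7 → ‖(t : ℂ) ^ (ρ + 1)‖ ≤ 49 := by
    intro t ht ht7
    rw [norm_cpow_eq_rpow_re_of_pos (by linarith), add_re, one_re]
    refine (Real.rpow_le_rpow_of_exponent_le ht
      (show ρ.re + 1 ≤ ((2 : ℕ) : ℝ) by push_cast; linarith)).trans ?_
    rw [Real.rpow_natCast]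
    nlinarith
  have hden : 1 / ‖ρ * (ρ + 1)‖ ≤ c₁ ^ 2 * (1 / (1 + |ρ.im|) ^ 2) := by
    refine (one_div_le_one_div_of_le ?_ (ExplicitFormula.norm_mul_add_one_ge hρ)).trans ?_
    · exact sq_pos_of_ne_zero (ExplicitFormula.im_ne_zero_of_zero hρ)
    · rw [← sq_abs, ← one_div_pow, ← one_div_pow, ← mul_pow]
      exact pow_le_pow_left₀ (by positivity) (hinv ρ hρ) 2
  rw [coef, norm_div, div_eq_mul_one_div, mul_assoc]
  refine mul_le_mul ?_ hden (by positivity) (by norm_num)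
  refine (norm_sub_le _ _).trans ?_
  linarith [norm_sub_le (((1 + b + a : ℝ) : ℂ) ^ (ρ + 1)) (((1 + b : ℝ) : ℂ) ^ (ρ + 1)),
    norm_sub_le (((1 + a : ℝ) : ℂ) ^ (ρ + 1)) (((1 : ℝ) : ℂ) ^ (ρ + 1)),
    e (1 + b + a) (by linarith) (by linarith), e (1 + b) (by linarith) (by linarith),
    e (1 + a) (by linarith) (by linarith), e 1 le_rfl (by norm_num)]

/-- The four integrals on the line `re s = -1/2`. -/
theorem exists_left_mixed : ∃ K, 0 ≤ K ∧ ∀ a b y : ℝ, 0 ≤ a → a ≤ 3 → 0 ≤ b → b ≤ 3 → 0 < y →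
    ‖(∫ t : ℝ, ExplicitFormula.integrand (y + b * y + a * y) (((-1 / 2 : ℝ) : ℂ) + t * I)) -
        (∫ t : ℝ, ExplicitFormula.integrand (y + b * y) (((-1 / 2 : ℝ) : ℂ) + t * I)) -
        ((∫ t : ℝ, ExplicitFormula.integrand (y + a * y) (((-1 / 2 : ℝ) : ℂ) + t * I)) -
          ∫ t : ℝ, ExplicitFormula.integrand y (((-1 / 2 : ℝ) : ℂ) + t * I))‖ ≤
      K * ((a * b) ^ (1 / 3 : ℝ) * √y) := by
  obtain ⟨C, hC, hleft⟩ := ExplicitFormula.exists_left
  obtain ⟨C', hC', hint⟩ := ExplicitFormula.exists_integral_left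
  obtain ⟨K, hK1, hK⟩ := FA.ZeroFree.ell_pow_le
  obtain ⟨f, hf⟩ : ∃ f : ℝ → ℝ, f = fun t => (1 + t ^ 2) ^ (-(23 / 36) : ℝ) := ⟨_, rfl⟩
  have hfi : Integrable f := by
    refine (integrable_rpow_neg_one_add_norm_sq (E := ℝ) (μ := volume) (r := 23 / 18)
      (by simp; norm_num)).congr (Eventually.of_forall fun t => ?_)
    simp only [hf, Real.norm_eq_abs, sq_abs]
    norm_num
  have hf0 : ∀ t, 0 ≤ f t := fun t => hf ▸ Real.rpow_nonneg (by positivity) _
  refine ⟨C * K * 784 * ∫ t, f t, mul_nonneg (by positivity) (integral_nonneg hf0),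
    fun a b y ha ha3 hb hb3 hy => ?_⟩
  have i1 := (hint (y + b * y + a * y) (by positivity)).1
  have i2 := (hint (y + b * y) (by positivity)).1
  have i3 := (hint (y + a * y) (by positivity)).1
  have i4 := (hint y hy).1
  have i5 := integral_sub (i1.sub i2) (i3.sub i4)
  simp only [Pi.sub_apply] at i5
  rw [← integral_sub i1 i2, ← integral_sub i3 i4, ← i5]
  refine (norm_integral_le_of_norm_le (hfi.const_mul (C * K * 784 * ((a * b) ^ (1 / 3 : ℝ) * √y)))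
    (Eventually.of_forall fun t => ?_)).trans (le_of_eq (by rw [integral_const_mul]; ring))
  obtain ⟨s, hs⟩ : ∃ s : ℂ, s = ((-1 / 2 : ℝ) : ℂ) + t * I := ⟨_, rfl⟩
  simp only [← hs]
  have hre : s.re = -1 / 2 := by simp [hs]
  have him : s.im = t := by simp [hs]
  have hs0 : s ≠ 0 := fun h => by rw [h] at hre; norm_num at hre
  have hs1 : s + 1 ≠ 0 := fun h => by
    have := congrArg Complex.re h
    simp [hre] at this
    norm_num at this
  have e : ∀ u : ℝ, 0 ≤ u → ((u * y : ℝ) : ℂ) ^ (s + 1) = (u : ℂ) ^ (s + 1) * (y : ℂ) ^ (s + 1) :=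
    fun u hu => by rw [ofReal_mul, mul_cpow_ofReal_nonneg hu hy.le]
  rw [show ExplicitFormula.integrand (y + b * y + a * y) s -
      ExplicitFormula.integrand (y + b * y) s - (ExplicitFormula.integrand (y + a * y) s -
        ExplicitFormula.integrand y s) =
      coef a b s * ((y : ℂ) ^ (s + 1) * ExplicitFormula.negLogDeriv s) by
    rw [show y + b * y + a * y = (1 + b + a) * y by ring]
    simp only [ExplicitFormula.integrand, coef,
      show y + b * y = (1 + b) * y by ring, show y + a * y = (1 + a) * y by ring,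
      e _ (show 0 ≤ 1 + b + a by linarith), e _ (show 0 ≤ 1 + b by linarith),
      e _ (show 0 ≤ 1 + a by linarith), ofReal_one, one_cpow]
    ring]
  rw [norm_mul, norm_mul, norm_cpow_eq_rpow_re_of_pos hy, add_re, hre, one_re,
    show (-1 / 2 + 1 : ℝ) = 1 / 2 by norm_num, ← Real.sqrt_eq_rpow]
  have h1 : ‖coef a b s‖ ≤ a * b := by
    simpa [coef] using FA.Hoheisel.norm_mixed_le_of_re_le_one hs0 hs1 (by rw [hre]; norm_num)
      one_pos ha hb
  have h2 : ‖coef a b s‖ ≤ 784 / (1 + t ^ 2) := by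
    have e' : ∀ u : ℝ, 1 ≤ u → u ≤ 7 → ‖(u : ℂ) ^ (s + 1)‖ ≤ 49 := fun u hu hu7 => by
      rw [norm_cpow_eq_rpow_re_of_pos (by linarith), add_re, hre, one_re]
      refine (Real.rpow_le_self_of_one_le hu (by norm_num)).trans ?_
      linarith
    have hden : (1 + t ^ 2) / 4 ≤ ‖s * (s + 1)‖ := by
      have e1 : ‖s‖ ^ 2 = 1 / 4 + t ^ 2 := by
        rw [Complex.sq_norm, Complex.normSq_apply, hre, him]; ring
      have e2 : ‖s + 1‖ ^ 2 = 1 / 4 + t ^ 2 := by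
        rw [Complex.sq_norm, Complex.normSq_apply, add_re, add_im, hre, him]; simp; ring
      rw [norm_mul, (sq_eq_sq₀ (norm_nonneg _) (norm_nonneg _)).1 (e2.trans e1.symm), ← sq, e1]
      nlinarith [sq_nonneg t]
    rw [coef, norm_div]
    refine (div_le_div₀ (by norm_num) ?_ (by positivity) hden).trans
      (le_of_eq (show (196 : ℝ) / ((1 + t ^ 2) / 4) = _ by field_simp; norm_num))
    refine (norm_sub_le _ _).trans ?_
    linarith [norm_sub_le (((1 + b + a : ℝ) : ℂ) ^ (s + 1)) (((1 + b : ℝ) : ℂ) ^ (s + 1)),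
      norm_sub_le (((1 + a : ℝ) : ℂ) ^ (s + 1)) (((1 : ℝ) : ℂ) ^ (s + 1)),
      e' (1 + b + a) (by linarith) (by linarith), e' (1 + b) (by linarith) (by linarith),
      e' (1 + a) (by linarith) (by linarith), e' 1 le_rfl (by norm_num)]
  have h3 : ‖coef a b s‖ ≤ (a * b) ^ (1 / 3 : ℝ) * (784 * (1 + t ^ 2) ^ (-(2 / 3) : ℝ)) := by
    have h := mul_le_mul (Real.rpow_le_rpow (norm_nonneg _) h1 (show (0 : ℝ) ≤ 1 / 3 by norm_num))
      (Real.rpow_le_rpow (norm_nonneg _) h2 (show (0 : ℝ) ≤ 2 / 3 by norm_num))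
      (by positivity) (by positivity)
    rw [← Real.rpow_add_of_nonneg (norm_nonneg _) (by norm_num) (by norm_num),
      show (1 / 3 + 2 / 3 : ℝ) = 1 by norm_num, Real.rpow_one] at h
    refine h.trans (mul_le_mul_of_nonneg_left ?_ (by positivity))
    rw [Real.div_rpow (by norm_num) (by positivity), Real.rpow_neg (by positivity),
      div_eq_mul_inv]
    exact mul_le_mul_of_nonneg_right (Real.rpow_le_self_of_one_le (by norm_num) (by norm_num))
      (by positivity)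
  have h4 : ell t ≤ K * (1 + t ^ 2) ^ (1 / 36 : ℝ) := by
    refine le_of_pow_le_pow_left₀ (n := 9) (by norm_num) (by positivity) ((hK t).trans ?_)
    rw [mul_pow, ← Real.rpow_mul_natCast (by positivity)]
    norm_num
    exact mul_le_mul_of_nonneg_right (le_self_pow₀ hK1 (by norm_num)) (by positivity)
  have h5 : ‖ExplicitFormula.negLogDeriv s‖ ≤ C * (K * (1 + t ^ 2) ^ (1 / 36 : ℝ)) :=
    hs ▸ (hleft t).trans (mul_le_mul_of_nonneg_left h4 hC)
  have hft : f t = (1 + t ^ 2) ^ (-(2 / 3) : ℝ) * (1 + t ^ 2) ^ (1 / 36 : ℝ) := by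
    rw [hf, ← Real.rpow_add (by positivity)]
    norm_num
  calc ‖coef a b s‖ * (√y * ‖ExplicitFormula.negLogDeriv s‖)
      ≤ (a * b) ^ (1 / 3 : ℝ) * (784 * (1 + t ^ 2) ^ (-(2 / 3) : ℝ)) *
          (√y * (C * (K * (1 + t ^ 2) ^ (1 / 36 : ℝ)))) :=
        mul_le_mul h3 (mul_le_mul_of_nonneg_left h5 (by positivity)) (by positivity)
          (by positivity)
    _ = _ := by rw [hft]; ring

/-- The mixed difference of `ψ₁` with proportional steps. -/
def mixedDiff (a b y : ℝ) : ℝ :=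
  psiOne (y + b * y + a * y) - psiOne (y + b * y) - (psiOne (y + a * y) - psiOne y)

/-- The part of the explicit formula coming from the zeros up to height `R`. -/
def zeroSum (a b R y : ℝ) : ℂ :=
  ∑ ρ ∈ zerosUpTo R, ((zeroWeight ρ : ℝ) : ℂ) * coef a b ρ * (y : ℂ) ^ (ρ + 1)

/-- The explicit formula for the mixed difference, cut at height `R`. -/
theorem exists_mixed_cut : ∃ K, 0 ≤ K ∧ ∀ (a b R y : ℝ), 0 ≤ a → a ≤ 3 → 0 ≤ b → b ≤ 3 →
    1 ≤ R → 1 ≤ y →
      |mixedDiff a b y - a * b * y ^ 2| ≤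
        ‖zeroSum a b R y‖ + K * (y ^ 2 * (ell R / R) + (a * b) ^ (1 / 3 : ℝ) * √y) := by
  classical
  obtain ⟨C, hC, hline⟩ := exists_left_mixed
  obtain ⟨c, hc, hcoef⟩ := exists_norm_coef_le
  obtain ⟨C₂, hC₂, htail⟩ := ExplicitFormula.exists_sum_tail
  obtain ⟨d, hd⟩ : ∃ d, d = deriv riemannZeta 0 / riemannZeta 0 := ⟨_, rfl⟩
  refine ⟨c * C₂ + C, by positivity, fun a b R y ha ha3 hb hb3 hR hy => ?_⟩
  have hy0 : 0 < y := by linarith
  have hay : 0 ≤ a * y := by positivity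
  have hby : 0 ≤ b * y := by positivity
  have hay3 : a * y ≤ 3 * y := by gcongr
  have hby3 : b * y ≤ 3 * y := by gcongr
  have s1 := (ExplicitFormula.summable_norm_zeroTerm
    (show 0 < y + b * y + a * y by linarith)).of_norm
  have s2 := (ExplicitFormula.summable_norm_zeroTerm (show 0 < y + b * y by linarith)).of_norm
  have s3 := (ExplicitFormula.summable_norm_zeroTerm (show 0 < y + a * y by linarith)).of_norm
  have s4 := (ExplicitFormula.summable_norm_zeroTerm hy0).of_norm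
  set Z : ℂ → ℂ := fun ρ => zeroTerm (y + b * y + a * y) ρ - zeroTerm (y + b * y) ρ -
      (zeroTerm (y + a * y) ρ - zeroTerm y ρ) with hZdef
  have hZs : Summable Z := (s1.sub s2).sub (s3.sub s4)
  have hZeq : ∀ ρ, Z ρ = ((zeroWeight ρ : ℝ) : ℂ) * coef a b ρ * (y : ℂ) ^ (ρ + 1) :=
    fun ρ => zeroTerm_mixed a b ha hb hy0.le ρ
  set g : ℂ → ℂ := fun ρ => if ρ ∈ zerosUpTo R then Z ρ else 0 with hg
  have hgs : Summable g := summable_of_ne_finset_zero (s := zerosUpTo R) fun ρ hρ => if_neg hρ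
  have hgsum : ∑' ρ, g ρ = zeroSum a b R y := by
    rw [tsum_eq_sum (s := zerosUpTo R) fun ρ hρ => if_neg hρ, zeroSum]
    exact Finset.sum_congr rfl fun ρ hρ => by simp only [if_pos hρ, hZeq]
  have hrest : ‖∑' ρ, (Z ρ - g ρ)‖ ≤ c * y ^ 2 * (C₂ * (ell R / R)) := by
    refine (norm_tsum_le_tsum_norm (hZs.sub hgs).norm).trans
      (Real.tsum_le_of_sum_le (fun ρ => norm_nonneg _) fun S => ?_)
    rw [← Finset.sum_filter_of_ne (p := fun ρ => xiFn ρ = 0 ∧ R < |ρ.im|) fun ρ _ hne => ?_]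
    · refine (Finset.sum_le_sum (g := fun ρ => c * y ^ 2 *
        ((zeroWeight ρ : ℝ) * (1 / (1 + |ρ.im|) ^ 2))) fun ρ hρ => ?_).trans ?_
      · obtain ⟨hρ0, hρR⟩ := (Finset.mem_filter.1 hρ).2
        obtain ⟨h0, h1⟩ := xiFn_zero_strip hρ0
        have hnot : ρ ∉ zerosUpTo R := fun h => (not_lt.2 (mem_zerosUpTo.1 h).2) hρR
        simp only [hg, if_neg hnot, sub_zero, hZeq, norm_mul, norm_real,
          Real.norm_of_nonneg (Nat.cast_nonneg _)]
        have hy2 : ‖(y : ℂ) ^ (ρ + 1)‖ ≤ y ^ 2 := by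
          rw [norm_cpow_eq_rpow_re_of_pos hy0, add_re, one_re, ← Real.rpow_natCast y 2]
          exact Real.rpow_le_rpow_of_exponent_le hy (by push_cast; linarith)
        calc (zeroWeight ρ : ℝ) * ‖coef a b ρ‖ * ‖(y : ℂ) ^ (ρ + 1)‖
            ≤ (zeroWeight ρ : ℝ) * (c * (1 / (1 + |ρ.im|) ^ 2)) * y ^ 2 := by
              gcongr
              exact hcoef a b ha ha3 hb hb3 ρ hρ0
          _ = _ := by ring
      · rw [← Finset.mul_sum]
        exact mul_le_mul_of_nonneg_left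
          (htail R _ hR fun ρ hρ => (Finset.mem_filter.1 hρ).2) (by positivity)
    · refine ⟨?_, ?_⟩
      · by_contra h
        exact hne (by simp [hg, hZdef, ExplicitFormula.zeroTerm_eq_zero _ h])
      · by_contra h
        refine hne ?_
        by_cases hz : xiFn ρ = 0
        · simp [hg, mem_zerosUpTo.2 ⟨hz, not_lt.1 h⟩]
        · simp [hg, hZdef, ExplicitFormula.zeroTerm_eq_zero _ hz]
  obtain ⟨E, hE⟩ : ∃ E : ℝ → ℂ, E = fun t : ℝ => (psiOne t : ℂ) - ((t : ℂ) ^ 2 / 2 -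
      ∑' ρ, zeroTerm t ρ - (t : ℂ) * d) := ⟨_, rfl⟩
  have hEq : ∀ t, 0 < t → E t =
      (∫ v : ℝ, ExplicitFormula.integrand t (((-1 / 2 : ℝ) : ℂ) + v * I)) / (2 * Real.pi) :=
    fun t ht => by rw [hE, hd]; exact ExplicitFormula.explicit_eq ht
  have hEb : ‖E (y + b * y + a * y) - E (y + b * y) - (E (y + a * y) - E y)‖ ≤
      C * ((a * b) ^ (1 / 3 : ℝ) * √y) := by
    rw [hEq _ (by linarith), hEq _ (by linarith), hEq _ (by linarith), hEq _ hy0, ← sub_div,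
      ← sub_div, ← sub_div, norm_div, norm_mul, RCLike.norm_ofNat, Complex.norm_real,
      Real.norm_eq_abs, abs_of_pos Real.pi_pos]
    exact (div_le_self (norm_nonneg _) (by linarith [Real.two_le_pi])).trans
      (hline a b y ha ha3 hb hb3 hy0)
  have e : ((mixedDiff a b y - a * b * y ^ 2 : ℝ) : ℂ) =
      E (y + b * y + a * y) - E (y + b * y) - (E (y + a * y) - E y) -
        (∑' ρ, g ρ + ∑' ρ, (Z ρ - g ρ)) := by
    rw [Summable.tsum_sub hZs hgs, add_sub_cancel, hZdef, Summable.tsum_sub (s1.sub s2)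
      (s3.sub s4), Summable.tsum_sub s1 s2, Summable.tsum_sub s3 s4, hE, mixedDiff]
    push_cast
    ring
  rw [← Real.norm_eq_abs, ← Complex.norm_real, e, hgsum]
  refine (norm_sub_le _ _).trans ?_
  have h1 := norm_add_le (zeroSum a b R y) (∑' ρ, (Z ρ - g ρ))
  have h9 : 0 ≤ C * (y ^ 2 * (ell R / R)) :=
    mul_nonneg hC (mul_nonneg (sq_nonneg _) (div_nonneg (by linarith [four_le_ell R])
      (by linarith)))
  have h10 : 0 ≤ c * C₂ * ((a * b) ^ (1 / 3 : ℝ) * √y) := by positivity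
  linarith

lemma ell_cube_le {X : ℝ} (hX : 5 ≤ X) : ell (X ^ 3) ≤ 4 * Real.log X := by
  have h : |X ^ 3| + 100 ≤ X ^ 4 := by
    rw [abs_of_nonneg (by positivity)]
    have h1 : (125 : ℝ) ≤ X ^ 3 := by nlinarith [mul_le_mul hX hX (by norm_num) (by linarith)]
    nlinarith
  refine (Real.log_le_log (by positivity) h).trans (le_of_eq ?_)
  rw [Real.log_pow]
  norm_num

/-- The weighted sum of squared coefficients is small even after two powers of `log X`. -/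
theorem coef_sum_small (H : FreeRate) {c₀ D : ℝ} {A : ℕ} (hc2 : 2 ≤ c₀)
    (hD : DensityBound c₀ D A) {ε₀ : ℝ} (hε₀ : 0 < ε₀) (hε₁ : ε₀ ≤ 1 / c₀) :
    ∀ ε : ℝ, 0 < ε → ∀ᶠ X in atTop, ∀ a b : ℝ, X ^ (-(2 / c₀) + ε₀) ≤ a → a ≤ 3 →
      X ^ (-(2 / c₀) + ε₀) ≤ b → b ≤ 3 →
      Real.log X ^ 2 * ∑ ρ ∈ zerosUpTo (X ^ 3),
          (zeroWeight ρ : ℝ) * (‖coef a b ρ‖ * X ^ (ρ.re - 1)) ^ 2 ≤ ε * (a * b) ^ 2 := by
  classical
  obtain ⟨c, hc, hcoef⟩ := exists_norm_coef_le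
  obtain ⟨K, hK, htail⟩ := FA.Huxley.exists_tail_weighted (show 0 < c₀ by linarith) hD
  intro ε hε
  set κ := 1 / c₀ - ε₀ / 4 with hκ
  have hc0 : 0 < 1 / c₀ := one_div_pos.2 (by linarith)
  have hκ0 : 0 < κ := by rw [hκ]; linarith
  have hκ38 : κ < 1 / c₀ := by rw [hκ]; linarith
  have hκ1 : κ ≤ 1 := by
    have := one_div_le_one_div_of_le two_pos hc2
    linarith
  set M := c ^ 2 * K * 2 ^ (A + 2) with hM
  have hM0 : 0 ≤ M := by positivity
  filter_upwards [(tendsto_pow_atTop two_ne_zero).eventually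
      (head_small_log H (show 0 < c₀ by linarith) hD hκ0 hκ38 (ε / 2) (by positivity)),
    (tendsto_rpow_atTop (show 0 < 2 * κ by positivity)).eventually_ge_atTop 3,
    ((isLittleO_log_rpow_atTop (show 0 < 2 * ε₀ / ((A + 4 : ℕ) : ℝ) by positivity)).pow
      (show 0 < A + 4 by omega)).def (show 0 < ε / (2 * (M + 1)) by positivity),
    eventually_ge_atTop (5 : ℝ)] with X hhd hT3 hlog hX a b ha ha3 hb hb3
  have hX0 : 0 < X := by linarith
  have hX1 : 1 ≤ X := by linarith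
  have hX21 : 1 ≤ X ^ 2 := by nlinarith
  have hl : 0 ≤ Real.log X := Real.log_nonneg hX1
  have ha0 : 0 < a := (Real.rpow_pos_of_pos hX0 _).trans_le ha
  have hb0 : 0 < b := (Real.rpow_pos_of_pos hX0 _).trans_le hb
  set T := (X ^ 2) ^ κ with hT
  have hTX : T = X ^ (2 * κ) := by
    rw [hT, ← Real.rpow_natCast X 2, ← Real.rpow_mul hX0.le]
    norm_num
  have hT3' : 3 ≤ T := hTX ▸ hT3
  have hT0 : 0 < T := by linarith
  set u : ℂ → ℝ := fun ρ => (zeroWeight ρ : ℝ) * (X ^ 2) ^ (ρ.re - 1) with hu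
  have hu0 : ∀ ρ, 0 ≤ u ρ := fun ρ => by positivity
  have hsq : ∀ ρ : ℂ, (X ^ (ρ.re - 1)) ^ 2 = (X ^ 2) ^ (ρ.re - 1) := fun ρ => by
    rw [← Real.rpow_natCast X 2, ← Real.rpow_mul hX0.le, ← Real.rpow_natCast (X ^ _) 2,
      ← Real.rpow_mul hX0.le, mul_comm]
  rw [← Finset.sum_filter_add_sum_filter_not (zerosUpTo (X ^ 3)) fun ρ => |ρ.im| ≤ T, mul_add,
    show ε * (a * b) ^ 2 = ε / 2 * (a * b) ^ 2 + ε / 2 * (a * b) ^ 2 by ring]
  refine add_le_add ?_ ?_
  · have h := hhd ((zerosUpTo (X ^ 3)).filter fun ρ => |ρ.im| ≤ T) fun ρ hρ =>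
      ⟨(mem_zerosUpTo.1 (Finset.mem_filter.1 hρ).1).1, (Finset.mem_filter.1 hρ).2⟩
    have hlogsq : Real.log X ^ 2 ≤ Real.log (X ^ 2) ^ 2 := by
      rw [Real.log_pow]
      push_cast
      nlinarith
    calc _ ≤ Real.log (X ^ 2) ^ 2 * ((a * b) ^ 2 *
          ∑ ρ ∈ (zerosUpTo (X ^ 3)).filter (fun ρ => |ρ.im| ≤ T), u ρ) := by
          rw [Finset.mul_sum ((zerosUpTo (X ^ 3)).filter _) u]
          refine mul_le_mul hlogsq (Finset.sum_le_sum fun ρ hρ => ?_)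
            (Finset.sum_nonneg fun ρ _ => by positivity) (sq_nonneg _)
          rw [mul_pow, hsq, hu]
          calc (zeroWeight ρ : ℝ) * (‖coef a b ρ‖ ^ 2 * (X ^ 2) ^ (ρ.re - 1))
              ≤ (zeroWeight ρ : ℝ) * ((a * b) ^ 2 * (X ^ 2) ^ (ρ.re - 1)) := by
                gcongr
                exact norm_coef_le_mul ha0.le hb0.le
                  (mem_zerosUpTo.1 (Finset.mem_filter.1 hρ).1).1
            _ = _ := by ring
      _ = (a * b) ^ 2 * (Real.log (X ^ 2) ^ 2 *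
            ∑ ρ ∈ (zerosUpTo (X ^ 3)).filter (fun ρ => |ρ.im| ≤ T), u ρ) := by ring
      _ ≤ (a * b) ^ 2 * (ε / 2) := mul_le_mul_of_nonneg_left h (sq_nonneg _)
      _ = _ := mul_comm _ _
  · set S := (zerosUpTo (X ^ 3)).filter fun ρ => ¬|ρ.im| ≤ T with hS
    have hSmem : ∀ ρ ∈ S, xiFn ρ = 0 ∧ T < |ρ.im| := fun ρ hρ =>
      ⟨(mem_zerosUpTo.1 (Finset.mem_filter.1 hρ).1).1, not_le.1 (Finset.mem_filter.1 hρ).2⟩
    have h := htail (X ^ 2) T S hX21 hT3'
      (Real.rpow_le_rpow_of_exponent_le hX21 hκ38.le) hSmem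
    have hpt : ∑ ρ ∈ S, (zeroWeight ρ : ℝ) * (‖coef a b ρ‖ * X ^ (ρ.re - 1)) ^ 2 ≤
        c ^ 2 / T ^ 2 * ∑ ρ ∈ S, u ρ * (1 / (1 + |ρ.im|) ^ 2) := by
      rw [Finset.mul_sum]
      refine Finset.sum_le_sum fun ρ hρ => ?_
      obtain ⟨hz, hlt⟩ := hSmem ρ hρ
      have h1 : (1 / (1 + |ρ.im|) ^ 2) ^ 2 ≤ 1 / T ^ 2 * (1 / (1 + |ρ.im|) ^ 2) := by
        rw [sq (1 / (1 + |ρ.im|) ^ 2)]
        refine mul_le_mul_of_nonneg_right (one_div_le_one_div_of_le (by positivity) ?_)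
          (by positivity)
        exact pow_le_pow_left₀ hT0.le (by linarith) 2
      rw [mul_pow, hsq, hu]
      calc (zeroWeight ρ : ℝ) * (‖coef a b ρ‖ ^ 2 * (X ^ 2) ^ (ρ.re - 1))
          ≤ (zeroWeight ρ : ℝ) * ((c * (1 / (1 + |ρ.im|) ^ 2)) ^ 2 * (X ^ 2) ^ (ρ.re - 1)) := by
            gcongr
            exact hcoef a b ha0.le ha3 hb0.le hb3 ρ hz
        _ ≤ (zeroWeight ρ : ℝ) * (c ^ 2 * (1 / T ^ 2 * (1 / (1 + |ρ.im|) ^ 2)) *
              (X ^ 2) ^ (ρ.re - 1)) := by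
            rw [mul_pow]
            gcongr
        _ = _ := by ring
    have hlT : Real.log T ≤ 2 * Real.log X := by
      rw [hTX, Real.log_rpow hX0]
      exact mul_le_mul_of_nonneg_right (by linarith) hl
    have hlog' : M * Real.log X ^ (A + 4) ≤ ε / 2 * X ^ (2 * ε₀) := by
      rw [Real.norm_of_nonneg (pow_nonneg hl (A + 4)), Real.norm_of_nonneg (pow_nonneg
        (Real.rpow_nonneg hX0.le _) (A + 4)), ← Real.rpow_mul_natCast hX0.le,
        div_mul_cancel₀ _ (Nat.cast_ne_zero.2 (show A + 4 ≠ 0 by omega))] at hlog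
      calc M * Real.log X ^ (A + 4) ≤ (M + 1) * (ε / (2 * (M + 1)) * X ^ (2 * ε₀)) :=
            mul_le_mul (by linarith) hlog (pow_nonneg hl (A + 4)) (by linarith)
        _ = _ := by field_simp
    have hab : X ^ (-(8 / c₀) + 4 * ε₀) ≤ (a * b) ^ 2 := by
      calc X ^ (-(8 / c₀) + 4 * ε₀) = (X ^ (-(2 / c₀) + ε₀) * X ^ (-(2 / c₀) + ε₀)) ^ 2 := by
            rw [← Real.rpow_add hX0, ← Real.rpow_natCast (X ^ _) 2, ← Real.rpow_mul hX0.le]
            push_cast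
            ring_nf
        _ ≤ _ := by gcongr
    have hT4 : 1 / T ^ 4 = X ^ (-(8 / c₀) + 2 * ε₀) := by
      rw [hTX, ← Real.rpow_natCast (X ^ _) 4, ← Real.rpow_mul hX0.le, one_div,
        ← Real.rpow_neg hX0.le, hκ]
      push_cast
      ring_nf
    calc Real.log X ^ 2 * ∑ ρ ∈ S, (zeroWeight ρ : ℝ) * (‖coef a b ρ‖ * X ^ (ρ.re - 1)) ^ 2
        ≤ Real.log X ^ 2 * (c ^ 2 / T ^ 2 * (K * (Real.log T ^ (A + 2) / T ^ 2))) :=
          mul_le_mul_of_nonneg_left (hpt.trans (mul_le_mul_of_nonneg_left h (by positivity)))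
            (sq_nonneg _)
      _ ≤ Real.log X ^ 2 * (c ^ 2 / T ^ 2 * (K * ((2 * Real.log X) ^ (A + 2) / T ^ 2))) := by
          have : 0 ≤ Real.log T := Real.log_nonneg (by linarith)
          gcongr
      _ = M * Real.log X ^ (A + 4) * (1 / T ^ 4) := by rw [hM]; ring
      _ ≤ ε / 2 * X ^ (2 * ε₀) * (1 / T ^ 4) := by gcongr
      _ = ε / 2 * X ^ (-(8 / c₀) + 4 * ε₀) := by
          rw [hT4, mul_assoc, ← Real.rpow_add hX0]
          ring_nf
      _ ≤ _ := by gcongr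

/-- **The mixed difference on average.** -/
theorem mixed_almost (H : FreeRate) {c D : ℝ} {A : ℕ} (hc2 : 2 ≤ c) (hD : DensityBound c D A)
    {ε₀ : ℝ} (hε₀ : 0 < ε₀) (hε₁ : ε₀ ≤ 1 / c) {ε η : ℝ} (hε : 0 < ε) (hη : 0 < η) :
    ∀ᶠ X in atTop, ∀ a b : ℝ, X ^ (-(2 / c) + ε₀) ≤ a → a ≤ 3 → X ^ (-(2 / c) + ε₀) ≤ b → b ≤ 3 →
      volume.real {y | y ∈ Set.Icc X (2 * X) ∧
        ε * (a * b * y ^ 2) < |mixedDiff a b y - a * b * y ^ 2|} ≤ η * X := by
  classical
  obtain ⟨K, hK, hcut⟩ := exists_mixed_cut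
  obtain ⟨P, hP, hpair⟩ := exists_pair_sum
  set ν := η * ε ^ 2 / (4 * 128 * 16 * (P + 1)) with hν
  have hν0 : 0 < ν := by positivity
  have h2c : 2 / c ≤ 1 := (div_le_one (by linarith)).2 hc2
  have h4c : 4 / c = 2 * (2 / c) := by ring
  have e1 : 0 < 2 - 4 / c + 2 * ε₀ := by linarith only [h4c, h2c, hε₀]
  have e2 : 0 < 3 / 2 - 4 / c * (2 / 3) + 4 / 3 * ε₀ := by linarith only [h4c, h2c, hε₀]
  filter_upwards [coef_sum_small H hc2 hD hε₀ hε₁ ν hν0,
    (tendsto_rpow_atTop e1).eventually_ge_atTop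
      (4 * (16 * K) / ε),
    (tendsto_rpow_atTop e2).eventually_ge_atTop
      (4 * (2 * K) / ε),
    eventually_ge_atTop (5 : ℝ)] with X hsum hbig hbig' hX a b ha ha3 hb hb3
  have hX0 : 0 < X := by linarith
  have hX1 : 1 ≤ X := by linarith
  have hl : 0 ≤ Real.log X := Real.log_nonneg hX1
  have ha0 : 0 < a := (Real.rpow_pos_of_pos hX0 _).trans_le ha
  have hb0 : 0 < b := (Real.rpow_pos_of_pos hX0 _).trans_le hb
  set R := X ^ 3 with hR
  have hR1 : 1 ≤ R := one_le_pow₀ hX1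
  set t := (ε / 2 * (a * b * X ^ 2)) ^ 2 with ht
  set G : ℝ → ℝ := fun y => ‖zeroSum a b R y‖ ^ 2 with hG
  have hmeas : Measurable G :=
    ((Finset.measurable_sum _ fun ρ _ =>
      (measurable_ofReal.pow_const _).const_mul _).norm).pow_const 2
  have hcontG : ContinuousOn G (Set.Icc X (2 * X)) :=
    ((continuousOn_finsetSum _ fun ρ _ => continuousOn_const.mul fun y hy =>
      (continuousAt_ofReal_cpow_const y _ (Or.inr (show y ≠ 0 by linarith [hy.1]))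
        ).continuousWithinAt).norm).pow 2
  have hsub : {y | y ∈ Set.Icc X (2 * X) ∧
      ε * (a * b * y ^ 2) < |mixedDiff a b y - a * b * y ^ 2|} ⊆
      {y | t ≤ G y} ∩ Set.Icc X (2 * X) := by
    rintro y ⟨hy, hlt⟩
    refine ⟨?_, hy⟩
    have hy1 : 1 ≤ y := le_trans hX1 hy.1
    have hy0 : 0 < y := by linarith
    have hc := hcut a b R y ha0.le ha3 hb0.le hb3 hR1 hy1
    have herr : K * (y ^ 2 * (ell R / R) + (a * b) ^ (1 / 3 : ℝ) * √y) ≤
        ε / 2 * (a * b * X ^ 2) := by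
      have h1 : y ^ 2 * (ell R / R) ≤ 16 := by
        have h1a : y ^ 2 ≤ 4 * X ^ 2 := by
          have := pow_le_pow_left₀ hy0.le hy.2 2
          linarith
        have h1b : Real.log X ≤ X := by
          linarith [Real.log_le_sub_one_of_pos hX0]
        calc y ^ 2 * (ell R / R) ≤ 4 * X ^ 2 * (4 * Real.log X / X ^ 3) := by
              have := four_le_ell R
              rw [hR] at this ⊢
              gcongr
              exact ell_cube_le hX
          _ = 16 * (Real.log X / X) := by field_simp; ring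
          _ ≤ 16 := by
              refine mul_le_of_le_one_right (by norm_num) ?_
              rw [div_le_one hX0]
              exact h1b
      have h2 : √y ≤ 2 * √X := by
        rw [Real.sqrt_le_left (by positivity), mul_pow, Real.sq_sqrt hX0.le]
        linarith [hy.2]
      have hab : X ^ (-(4 / c) + 2 * ε₀) ≤ a * b := by
        calc X ^ (-(4 / c) + 2 * ε₀) = X ^ (-(2 / c) + ε₀) * X ^ (-(2 / c) + ε₀) := by
              rw [← Real.rpow_add hX0]; ring_nf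
          _ ≤ _ := by gcongr
      have hab0 : 0 < a * b := mul_pos ha0 hb0
      rw [div_le_iff₀ hε] at hbig hbig'
      have h3 : K * 16 ≤ ε / 4 * (a * b * X ^ 2) := by
        have h : X ^ (2 - 4 / c + 2 * ε₀) ≤ a * b * X ^ 2 := by
          calc X ^ (2 - 4 / c + 2 * ε₀) = X ^ (-(4 / c) + 2 * ε₀) * X ^ ((2 : ℕ) : ℝ) := by
                rw [← Real.rpow_add hX0]; push_cast; ring_nf
            _ ≤ _ := by rw [Real.rpow_natCast]; gcongr
        have := mul_le_mul_of_nonneg_right h hε.le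
        linarith
      have h4 : K * ((a * b) ^ (1 / 3 : ℝ) * (2 * √X)) ≤ ε / 4 * (a * b * X ^ 2) := by
        have h : X ^ (3 / 2 - 4 / c * (2 / 3) + 4 / 3 * ε₀) * ((a * b) ^ (1 / 3 : ℝ) * √X) ≤
            a * b * X ^ 2 := by
          calc X ^ (3 / 2 - 4 / c * (2 / 3) + 4 / 3 * ε₀) * ((a * b) ^ (1 / 3 : ℝ) * √X)
              = (X ^ (-(4 / c) + 2 * ε₀)) ^ (2 / 3 : ℝ) * (a * b) ^ (1 / 3 : ℝ) *
                  X ^ ((2 : ℕ) : ℝ) := by
                have e : X ^ (3 / 2 - 4 / c * (2 / 3) + 4 / 3 * ε₀) * √X =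
                    (X ^ (-(4 / c) + 2 * ε₀)) ^ (2 / 3 : ℝ) * X ^ ((2 : ℕ) : ℝ) := by
                  rw [← Real.rpow_mul hX0.le, Real.sqrt_eq_rpow, ← Real.rpow_add hX0,
                    ← Real.rpow_add hX0]
                  push_cast
                  ring_nf
                linear_combination (a * b) ^ (1 / 3 : ℝ) * e
            _ ≤ (a * b) ^ (2 / 3 : ℝ) * (a * b) ^ (1 / 3 : ℝ) * X ^ ((2 : ℕ) : ℝ) := by gcongr
            _ = _ := by
                rw [← Real.rpow_add hab0, Real.rpow_natCast]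
                norm_num
        have := mul_le_mul_of_nonneg_right h hε.le
        have := mul_le_mul_of_nonneg_right hbig'
          (show 0 ≤ (a * b) ^ (1 / 3 : ℝ) * √X by positivity)
        linarith
      calc K * (y ^ 2 * (ell R / R) + (a * b) ^ (1 / 3 : ℝ) * √y)
          ≤ K * (16 + (a * b) ^ (1 / 3 : ℝ) * (2 * √X)) := by gcongr
        _ ≤ _ := by rw [mul_add]; linarith
    have hXy : ε * (a * b * X ^ 2) ≤ ε * (a * b * y ^ 2) := by
      gcongr
      exact hy.1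
    show t ≤ G y
    rw [ht, hG]
    exact pow_le_pow_left₀ (by positivity) (by linarith) 2
  have hA : MeasurableSet {y | t ≤ G y} := measurableSet_le measurable_const hmeas
  have hint : IntegrableOn G (Set.Icc X (2 * X)) := hcontG.integrableOn_Icc
  have hmarkov : t * volume.real ({y | t ≤ G y} ∩ Set.Icc X (2 * X)) ≤
      ∫ y in X..2 * X, G y := by
    rw [intervalIntegral.integral_of_le (by linarith), ← integral_Icc_eq_integral_Ioc]
    have h := mul_meas_ge_le_integral_of_nonneg (μ := volume.restrict (Set.Icc X (2 * X)))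
      (Eventually.of_forall fun y => sq_nonneg ‖zeroSum a b R y‖) hint t
    rwa [measureReal_restrict_apply hA] at h
  have hms : ∫ y in X..2 * X, G y ≤
      128 * X ^ 5 * (P * ell R ^ 2) *
        ∑ ρ ∈ zerosUpTo R, (zeroWeight ρ : ℝ) * (‖coef a b ρ‖ * X ^ (ρ.re - 1)) ^ 2 :=
    integral_norm_sq_le hX0 _ (fun ρ => (zeroWeight ρ : ℝ)) _ (fun ρ _ => Nat.cast_nonneg _)
      (fun ρ hρ => xiFn_zero_strip (mem_zerosUpTo.1 hρ).1) fun ρ hρ =>
      hpair R ρ.im _ (by linarith) (mem_zerosUpTo.1 hρ).2 fun σ hσ => mem_zerosUpTo.1 hσ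
  have hmono : volume.real {y | y ∈ Set.Icc X (2 * X) ∧
      ε * (a * b * y ^ 2) < |mixedDiff a b y - a * b * y ^ 2|} ≤
      volume.real ({y | t ≤ G y} ∩ Set.Icc X (2 * X)) :=
    measureReal_mono hsub (measure_ne_top_of_subset Set.inter_subset_right
      measure_Icc_lt_top.ne)
  refine hmono.trans (le_of_mul_le_mul_left ?_ (show 0 < t by positivity))
  refine hmarkov.trans (hms.trans ?_)
  have hell : ell R ^ 2 ≤ 16 * Real.log X ^ 2 := by
    have := pow_le_pow_left₀ (by linarith [four_le_ell R]) (ell_cube_le hX) 2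
    rw [← hR] at this
    linarith
  have hS0 : 0 ≤ ∑ ρ ∈ zerosUpTo R,
      (zeroWeight ρ : ℝ) * (‖coef a b ρ‖ * X ^ (ρ.re - 1)) ^ 2 :=
    Finset.sum_nonneg fun ρ _ => by positivity
  calc 128 * X ^ 5 * (P * ell R ^ 2) *
        ∑ ρ ∈ zerosUpTo R, (zeroWeight ρ : ℝ) * (‖coef a b ρ‖ * X ^ (ρ.re - 1)) ^ 2
      ≤ 128 * X ^ 5 * ((P + 1) * (16 * Real.log X ^ 2)) *
        ∑ ρ ∈ zerosUpTo R, (zeroWeight ρ : ℝ) * (‖coef a b ρ‖ * X ^ (ρ.re - 1)) ^ 2 := by
        gcongr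
        linarith
    _ = 128 * 16 * (P + 1) * X ^ 5 * (Real.log X ^ 2 *
        ∑ ρ ∈ zerosUpTo R, (zeroWeight ρ : ℝ) * (‖coef a b ρ‖ * X ^ (ρ.re - 1)) ^ 2) := by ring
    _ ≤ 128 * 16 * (P + 1) * X ^ 5 * (ν * (a * b) ^ 2) := by
        exact mul_le_mul_of_nonneg_left (hsum a b ha ha3 hb hb3) (by positivity)
    _ = t * (η * X) := by rw [ht, hν]; field_simp; ring

end FA.AlmostAllPrimes

end
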